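/-
S45, project CARAYOL-K (chief helper122), block MOD (owner helper18): THE ABSTRACT TOWER.

`T : Tower K` is the tower of function fields `T.F k` of `X₀(N₀ q^k)` over `K`, with the two degeneracy
maps `T.al k : f(z) ↦ f(z)`, `T.be k : f(z) ↦ f(q z)` from level `k` to level `k + 1`, the function
`T.j = j(z)` and the base coordinate `T.x₀` (a Hauptmodul of the auxiliary level) of level `0`.

* `T.X k i = j(q^i z)` at level `k` (`i ≤ k`);  `T.da k = α^k`, `T.db k = β^k : T.F 0 → T.F k`.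
* `T.Gen q`        : what is true at EVERY level (square, degrees, Kronecker's congruence).
* `T.Base A₀ q ..` : the tables of the vertical valuations at the levels `0`, `1`, `2`
                     (`V1 0 = F`, `V1 1 = V`;  `V2 0 = FF`, `V2 1 = FV`, `V2 2 = VV`).

Blocks TAB and PTS work with an abstract `T`; the instance `T.F k = FK K (N₀ q^k)` is
`S45/Mod/Inst*.lean`.  Imports Mathlib and three small definition files only.
-/
import Mathlib
import Fermat.Agent.S18.Defs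
import Fermat.Agent.S36.BP.Defs
import Fermat.Agent.S36.Norm.Along

set_option autoImplicit false

noncomputable section

namespace Fermat.Agent.S45.Mod

open Fermat.Agent.S18 Fermat.Agent.S36.BP Fermat.Agent.S36.Norm

/-- (embedding) ∘ (norm along the embedding); definitionally equal to `S36.embNorm f`. -/
def eN {F₁ F : Type*} [Field F₁] [Field F] (f : F₁ →+* F) : F →* F :=
  (f : F₁ →* F).comp (nm f)

/-- `(x^q - y)(x - y^q) + q ∑_{a,b ≤ q} ψ a b x^a y^b`: the modular polynomial `Φ_q`, written as in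
Kronecker's congruence. -/
def kronPoly {S : Type*} [CommRing S] (q : ℕ) (ψ : ℕ → ℕ → ℤ) (x y : S) : S :=
  (x ^ q - y) * (x - y ^ q) +
    (q : S) * ∑ a ∈ Finset.range (q + 1), ∑ b ∈ Finset.range (q + 1), (ψ a b : S) * x ^ a * y ^ b

theorem map_kronPoly {S S' : Type*} [CommRing S] [CommRing S'] (f : S →+* S') (q : ℕ)
    (ψ : ℕ → ℕ → ℤ) (x y : S) : f (kronPoly q ψ x y) = kronPoly q ψ (f x) (f y) := by
  simp only [kronPoly, map_add, map_mul, map_sub, map_pow, map_sum, map_intCast, map_natCast]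

theorem kronPoly_symm {S : Type*} [CommRing S] (q : ℕ) (ψ : ℕ → ℕ → ℤ)
    (hψ : ∀ a b, ψ a b = ψ b a) (x y : S) : kronPoly q ψ y x = kronPoly q ψ x y := by
  unfold kronPoly
  rw [Finset.sum_comm]
  congr 1
  · ring
  · congr 1
    refine Finset.sum_congr rfl fun a _ => Finset.sum_congr rfl fun b _ => ?_
    rw [hψ b a]
    ring

/-- The tower of function fields (data). -/
structure Tower (K : Type) [Field K] where
  /-- the function field of level `N₀ q^k` -/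
  F : ℕ → Type
  [fld : ∀ k, Field (F k)]
  [alg : ∀ k, Algebra K (F k)]
  /-- `f(z) ↦ f(z)` -/
  al : ∀ k, F k →ₐ[K] F (k + 1)
  /-- `f(z) ↦ f(q z)` -/
  be : ∀ k, F k →ₐ[K] F (k + 1)
  /-- `j(z)` at level `N₀` -/
  j : F 0
  /-- the base coordinate of level `N₀` -/
  x₀ : F 0

attribute [instance] Tower.fld Tower.alg

namespace Tower

variable {K : Type} [Field K] (T : Tower K)

/-- `f(z) ↦ f(z)`, from level `0` to level `k`. -/
def da : ∀ k, T.F 0 →ₐ[K] T.F k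
  | 0 => AlgHom.id K _
  | k + 1 => (T.al k).comp (da k)

/-- `f(z) ↦ f(q^k z)`, from level `0` to level `k`. -/
def db : ∀ k, T.F 0 →ₐ[K] T.F k
  | 0 => AlgHom.id K _
  | k + 1 => (T.be k).comp (db k)

@[simp] theorem da_zero (y : T.F 0) : T.da 0 y = y := rfl
@[simp] theorem db_zero (y : T.F 0) : T.db 0 y = y := rfl
theorem da_succ (k : ℕ) (y : T.F 0) : T.da (k + 1) y = T.al k (T.da k y) := rfl
theorem db_succ (k : ℕ) (y : T.F 0) : T.db (k + 1) y = T.be k (T.db k y) := rfl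

/-- `f(z) ↦ f(q^i z)`, from level `0` to level `k` (`= α^(k-i) β^i` for `i ≤ k`; junk `β^k` for
`i > k`). -/
def dd : ∀ k : ℕ, ℕ → (T.F 0 →ₐ[K] T.F k)
  | 0, _ => AlgHom.id K _
  | k + 1, i => if i ≤ k then (T.al k).comp (dd k i) else (T.be k).comp (dd k k)

theorem dd_succ_of_le {k i : ℕ} (h : i ≤ k) (y : T.F 0) :
    T.dd (k + 1) i y = T.al k (T.dd k i y) := by
  rw [dd, if_pos h]; rfl

theorem dd_succ_self (k : ℕ) (y : T.F 0) : T.dd (k + 1) (k + 1) y = T.be k (T.dd k k y) := by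
  rw [dd, if_neg (by omega)]; rfl

/-- `j(q^i z)` at level `k` (`i ≤ k`). -/
def X (k i : ℕ) : T.F k := T.dd k i T.j

theorem X_succ_of_le {k i : ℕ} (h : i ≤ k) : T.X (k + 1) i = T.al k (T.X k i) :=
  T.dd_succ_of_le h T.j

theorem X_succ_self (k : ℕ) : T.X (k + 1) (k + 1) = T.be k (T.X k k) := T.dd_succ_self k T.j

/-- the image of level `k` in level `k + 1` under `f(z) ↦ f(z)` -/
abbrev Ea (k : ℕ) : Subfield (T.F (k + 1)) := (T.al k).toRingHom.fieldRange

/-- the image of level `k` in level `k + 1` under `f(z) ↦ f(q z)` -/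
abbrev Eb (k : ℕ) : Subfield (T.F (k + 1)) := (T.be k).toRingHom.fieldRange

/-- (embedding) ∘ (norm) along `f(z) ↦ f(z)`, on level `k + 1` -/
abbrev Na (k : ℕ) : T.F (k + 1) →* T.F (k + 1) := eN (T.al k).toRingHom

/-- (embedding) ∘ (norm) along `f(z) ↦ f(q z)`, on level `k + 1` -/
abbrev Nb (k : ℕ) : T.F (k + 1) →* T.F (k + 1) := eN (T.be k).toRingHom

/-- (embedding) ∘ (norm) along `f(z) ↦ f(q z)` from level `k` to level `k + 2`
(`= α_(k+1) ∘ β_k = β_(k+1) ∘ α_k`) -/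
abbrev N0 (k : ℕ) : T.F (k + 2) →* T.F (k + 2) := eN ((T.al (k + 1)).toRingHom.comp (T.be k).toRingHom)

/-- **What is true at every level.** -/
structure Gen (q : ℕ) : Prop where
  charZero : CharZero K
  /-- `α β = β α` -/
  comm : ∀ k (y : T.F k), T.al (k + 1) (T.be k y) = T.be (k + 1) (T.al k y)
  dg_al : ∀ k, 1 ≤ k → dg (T.al k).toRingHom = q
  dg_be : ∀ k, 1 ≤ k → dg (T.be k).toRingHom = q
  dg_al0 : dg (T.al 0).toRingHom = q + 1
  dg_be0 : dg (T.be 0).toRingHom = q + 1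
  /-- Kronecker: `Φ_q(j(z), j(qz)) = 0`, `Φ_q = (X^q - Y)(X - Y^q) + q Ψ`, `Ψ` symmetric -/
  kron : ∃ ψ : ℕ → ℕ → ℤ, (∀ a b, ψ a b = ψ b a) ∧ kronPoly q ψ (T.al 0 T.j) (T.be 0 T.j) = 0

/-- **The tables of the vertical valuations at the levels `0`, `1`, `2`.**
`V1 0 = F` (cusp `∞`), `V1 1 = V` (cusp `0`);  `V2 0 = FF`, `V2 1 = FV`, `V2 2 = VV`. -/
structure Base (A₀ : ValuationSubring K) (q : ℕ) (V0 : ValuationSubring (T.F 0))
    (V1 : Fin 2 → ValuationSubring (T.F 1)) (V2 : Fin 3 → ValuationSubring (T.F 2)) : Prop where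
  base : BaseHyp A₀ q
  -- level 0
  const0 : V0.comap (algebraMap K (T.F 0)) = A₀
  unif0 : IsUnif V0 (q : T.F 0)
  j_unit : V0.valuation T.j = 1
  /-- the reduction of `j` is not a `q`-th power -/
  j_insep : ∀ y : T.F 0, ¬ V0.valuation (y ^ q - T.j) < 1
  -- level 1
  comap_al1 : ∀ c, (V1 c).comap (T.al 0).toRingHom = V0
  comap_be1 : ∀ c, (V1 c).comap (T.be 0).toRingHom = V0
  complete_al1 : ∀ W : ValuationSubring (T.F 1), W.comap (T.al 0).toRingHom = V0 → ∃ c, W = V1 c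
  complete_be1 : ∀ W : ValuationSubring (T.F 1), W.comap (T.be 0).toRingHom = V0 → ∃ c, W = V1 c
  inj1 : Function.Injective V1
  unif1 : ∀ c, IsUnif (V1 c) (q : T.F 1)
  /-- `j(qz) ≡ j(z)^q` on `F` -/
  typeF : (V1 0).valuation (T.be 0 T.j - T.al 0 T.j ^ q) < 1
  /-- `j(z) ≡ j(qz)^q` on `V` -/
  typeV : (V1 1).valuation (T.al 0 T.j - T.be 0 T.j ^ q) < 1
  denseF : ∀ y ∈ V1 0, ∃ r : T.F 0, (V1 0).valuation (T.al 0 r - y) < 1
  denseV : ∀ y ∈ V1 1, ∃ r : T.F 0, (V1 1).valuation (T.be 0 r - y) < 1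
  -- level 2
  comap_al2 : (V2 0).comap (T.al 1).toRingHom = V1 0 ∧ (V2 1).comap (T.al 1).toRingHom = V1 0 ∧
    (V2 2).comap (T.al 1).toRingHom = V1 1
  comap_be2 : (V2 0).comap (T.be 1).toRingHom = V1 0 ∧ (V2 1).comap (T.be 1).toRingHom = V1 1 ∧
    (V2 2).comap (T.be 1).toRingHom = V1 1
  complete_a2 : ∀ W : ValuationSubring (T.F 2), W.comap (T.da 2).toRingHom = V0 → ∃ c, W = V2 c
  complete_b2 : ∀ W : ValuationSubring (T.F 2), W.comap (T.db 2).toRingHom = V0 → ∃ c, W = V2 c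
  inj2 : Function.Injective V2
  unif20 : IsUnif (V2 0) (q : T.F 2)
  /-- `j(q² z) - j(z)` is a uniformiser of the middle component -/
  unif21 : IsUnif (V2 1) (T.X 2 2 - T.X 2 0)
  unif22 : IsUnif (V2 2) (q : T.F 2)
  ram21 : (V2 1).valuation (T.X 2 2 - T.X 2 0) ^ (q - 1) = (V2 1).valuation (q : T.F 2)
  dense20 : ∀ y ∈ V2 0, ∃ r : T.F 0, (V2 0).valuation (T.da 2 r - y) < 1
  dense21a : ∀ y ∈ V2 1, ∃ r : T.F 0, (V2 1).valuation (T.da 2 r - y) < 1
  dense21b : ∀ y ∈ V2 1, ∃ r : T.F 0, (V2 1).valuation (T.db 2 r - y) < 1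
  dense22 : ∀ y ∈ V2 2, ∃ r : T.F 0, (V2 2).valuation (T.db 2 r - y) < 1
  halfα : Half q (T.X 2 2 - T.X 2 0) (T.Ea 1) (T.Na 1) (V2 0) (V2 1) (V2 2)
  halfβ : Half q (T.X 2 2 - T.X 2 0) (T.Eb 1) (T.Nb 1) (V2 2) (V2 1) (V2 0)

end Tower

end Fermat.Agent.S45.Mod

end
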