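/-
S45, project CARAYOL-K, block MOD: the FORMAL NORM FIELDS of `K.ModelK` for the modular instance.

`F₂ = FK K N₁`, `F₁ = FK K (N₁ q)`, `F = FK K (N₁ q q)` (`q ∣ N₁`), `α, β : F₁ → F` and
`α₁, β₁ : F₂ → F₁` the degeneracy embeddings, `α ∘ β₁ = β ∘ α₁`, all four of degree `q`.
`Nα = embNorm α`, `Nβ = embNorm β`, `N₀ = embNorm (α ∘ β₁)`.

* `NormHyp`           : the eleven fields `constα … tieβ_one` of `ModelK`, bundled;
* `normHyp_of_square` : abstract (a commutative square of field embeddings of degree `q`);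
* `Tower.Gen.normHyp` : the same for helper18's abstract tower (`S45/Mod/Tower.lean`), level `k + 2`, `k ≥ 1`;
* `normHyp_modular`   : the modular instance; `alpha_comp_beta`, `dg_alphaK_of_dvd`, `dg_betaK_of_dvd`,
                        `dg_alphaK_of_not_dvd`, `dg_betaK_of_not_dvd` : the fields `comm`, `dg_*` of `Tower.Gen`.
-/
import Fermat.Agent.S36.ModelStatement
import Fermat.Agent.S36.Mod.HalfInst.Degree
import Fermat.Agent.S45.K.Defs
import Fermat.Agent.S45.Mod.Tower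

set_option autoImplicit false

noncomputable section

namespace Fermat.Agent.S45.Mod

open ModularCurve Fermat.Agent.S24 Fermat.Agent.S18 Fermat.Agent.S36 Fermat.Agent.S36.Norm

/-- The formal norm fields of `K.ModelK`. -/
structure NormHyp {F : Type*} [Field F] (K₀ : Type*) [Field K₀] [Algebra K₀ F] (q : ℕ)
    (Eα Eβ : Subfield F) (Nα Nβ N₀ : F →* F) : Prop where
  constα : ∀ a : K₀, algebraMap K₀ F a ∈ Eα
  constβ : ∀ a : K₀, algebraMap K₀ F a ∈ Eβ
  normα_mem : ∀ y, Nα y ∈ Eα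
  normβ_mem : ∀ y, Nβ y ∈ Eβ
  normα_self : ∀ y ∈ Eα, Nα y = y ^ q
  normβ_self : ∀ y ∈ Eβ, Nβ y = y ^ q
  norm₀_const : ∀ a : K₀, N₀ (algebraMap K₀ F a) = algebraMap K₀ F a ^ (q * q)
  tieα : ∀ y, N₀ (Nα y) = N₀ y ^ q
  tieβ : ∀ y, N₀ (Nβ y) = N₀ y ^ q
  tieα_one : ∀ y, Nα y = 1 → N₀ y = 1
  tieβ_one : ∀ y, Nβ y = 1 → N₀ y = 1

section Abstract

variable {F₂ F₁ F : Type*} [Field F₂] [Field F₁] [Field F]

theorem embNorm_eq (f : F₁ →+* F) (y : F) : embNorm f y = f (nm f y) := rfl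

theorem embNorm_mem (f : F₁ →+* F) (y : F) : embNorm f y ∈ f.fieldRange := ⟨nm f y, rfl⟩

theorem nm_map (f : F₁ →+* F) (x : F₁) : nm f (f x) = x ^ dg f := by
  let _ := f.toAlgebra
  exact Algebra.norm_algebraMap x

theorem embNorm_map (f : F₁ →+* F) (x : F₁) : embNorm f (f x) = f x ^ dg f := by
  rw [embNorm_eq, nm_map, map_pow]

theorem embNorm_self (f : F₁ →+* F) {y : F} (hy : y ∈ f.fieldRange) :
    embNorm f y = y ^ dg f := by
  obtain ⟨x, rfl⟩ := hy
  exact embNorm_map f x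

theorem embNorm_comp (f : F₁ →+* F) (g : F₂ →+* F₁) (y : F) :
    embNorm (f.comp g) y = f (embNorm g (nm f y)) := by
  rw [embNorm_eq, embNorm_eq, nm_comp]
  rfl

/-- `N₀ (N_f y) = (N₀ y) ^ deg f` -/
theorem embNorm_comp_embNorm (f : F₁ →+* F) (g : F₂ →+* F₁) (y : F) :
    embNorm (f.comp g) (embNorm f y) = embNorm (f.comp g) y ^ dg f := by
  rw [embNorm_comp, embNorm_comp, embNorm_eq f, nm_map, map_pow, map_pow]

theorem embNorm_comp_eq_one (f : F₁ →+* F) (g : F₂ →+* F₁) {y : F} (h : embNorm f y = 1) :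
    embNorm (f.comp g) y = 1 := by
  have h1 : nm f y = 1 := f.injective (by rw [map_one]; exact h)
  rw [embNorm_comp, h1, map_one, map_one]

/-- **The formal norm fields from a commutative square of embeddings of degree `q`.** -/
theorem normHyp_of_square {K₀ : Type*} [Field K₀] [Algebra K₀ F₂] [Algebra K₀ F₁] [Algebra K₀ F]
    {q : ℕ} (α β : F₁ →ₐ[K₀] F) (α₁ β₁ : F₂ →ₐ[K₀] F₁)
    (hsq : α.toRingHom.comp β₁.toRingHom = β.toRingHom.comp α₁.toRingHom)
    (hα : dg α.toRingHom = q) (hβ : dg β.toRingHom = q) (hβ₁ : dg β₁.toRingHom = q) :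
    NormHyp K₀ q α.toRingHom.fieldRange β.toRingHom.fieldRange (embNorm α.toRingHom)
      (embNorm β.toRingHom) (embNorm (α.toRingHom.comp β₁.toRingHom)) where
  constα a := ⟨algebraMap K₀ F₁ a, α.commutes a⟩
  constβ a := ⟨algebraMap K₀ F₁ a, β.commutes a⟩
  normα_mem y := embNorm_mem _ y
  normβ_mem y := embNorm_mem _ y
  normα_self y hy := by rw [embNorm_self _ hy, hα]
  normβ_self y hy := by rw [embNorm_self _ hy, hβ]
  norm₀_const a := by
    have h1 : algebraMap K₀ F a = (α.toRingHom.comp β₁.toRingHom) (algebraMap K₀ F₂ a) := by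
      show _ = α (β₁ (algebraMap K₀ F₂ a))
      rw [β₁.commutes, α.commutes]
    rw [h1, embNorm_map, dg_comp, hα, hβ₁]
  tieα y := by rw [embNorm_comp_embNorm, hα]
  tieβ y := by rw [hsq, embNorm_comp_embNorm, hβ]
  tieα_one y h := embNorm_comp_eq_one _ _ h
  tieβ_one y h := by
    rw [hsq]
    exact embNorm_comp_eq_one _ _ h

/-- the formal norm fields at level `k + 2` of an abstract tower, `k ≥ 1` -/
theorem Tower.Gen.normHyp {K : Type} [Field K] {T : Tower K} {q : ℕ} (G : T.Gen q) {k : ℕ}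
    (hk : 1 ≤ k) :
    NormHyp K q (T.Ea (k + 1)) (T.Eb (k + 1)) (T.Na (k + 1)) (T.Nb (k + 1)) (T.N0 k) :=
  normHyp_of_square (T.al (k + 1)) (T.be (k + 1)) (T.al k) (T.be k)
    (RingHom.ext fun y => G.comm k y) (G.dg_al (k + 1) (by omega)) (G.dg_be (k + 1) (by omega))
    (G.dg_be k hk)

end Abstract

section Modular

variable (K : Type*) [Field K] [Algebra ℚ K] (N q : ℕ) [NeZero N] [NeZero q]

/-- `α ∘ β₁ = β ∘ α₁ : FK K N → FK K (N q q)` -/
theorem alpha_comp_beta :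
    (heckeAlphaBar K (N * q) q).toRingHom.comp (heckeBetaBar K N q).toRingHom =
      (heckeBetaBar K (N * q) q).toRingHom.comp (heckeAlphaBar K N q).toRingHom := by
  refine RingHom.ext fun x => Subtype.ext ?_
  show ((heckeAlphaBar K (N * q) q (heckeBetaBar K N q x) : FK K (N * q * q)) : LaurentSeries K) =
    ((heckeBetaBar K (N * q) q (heckeAlphaBar K N q x) : FK K (N * q * q)) : LaurentSeries K)
  rw [coe_heckeAlphaBar, coe_heckeBetaBar, coe_heckeBetaBar, coe_heckeAlphaBar]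

/-- the norm to the common subfield `αβ (FK K N)` of level `N q q` -/
def normZero : FK K (N * q * q) →* FK K (N * q * q) :=
  embNorm ((heckeAlphaBar K (N * q) q).toRingHom.comp (heckeBetaBar K N q).toRingHom)

variable [Algebra K Kbar]

theorem dg_alphaK_of_dvd {N q : ℕ} [NeZero N] [NeZero q] (hq : q.Prime) (hqN : q ∣ N) :
    dg (heckeAlphaBar K N q).toRingHom = q := by
  rw [Mod.dg_alphaK, heckeAlphaBar_eq_inc]
  exact dg_inc_of_dvd hq hqN

theorem dg_betaK_of_dvd {N q : ℕ} [NeZero N] [NeZero q] (hq : q.Prime) (hqN : q ∣ N) :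
    dg (heckeBetaBar K N q).toRingHom = q := by
  rw [Mod.dg_betaK]
  exact dg_beta_of_dvd hq hqN

theorem dg_alphaK_of_not_dvd {N q : ℕ} [NeZero N] [NeZero q] (hq : q.Prime) (hqN : ¬ q ∣ N) :
    dg (heckeAlphaBar K N q).toRingHom = q + 1 := by
  rw [Mod.dg_alphaK, heckeAlphaBar_eq_inc]
  exact dg_inc_of_not_dvd hq hqN

theorem dg_betaK_of_not_dvd {N q : ℕ} [NeZero N] [NeZero q] (hq : q.Prime) (hqN : ¬ q ∣ N) :
    dg (heckeBetaBar K N q).toRingHom = q + 1 := by
  rw [Mod.dg_betaK]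
  have e1 := dg_vv (M := N) (M' := N * q) q hq (dvd_refl (N * q))
  have e2 := dg_inc (dvd_mul_right N q)
  rw [dg_inc_of_not_dvd hq hqN] at e2
  rw [heckeBetaBar_eq_vv]
  exact Nat.eq_of_mul_eq_mul_right (Nat.pos_of_ne_zero (dedekindPsi_ne_zero N)) (e1.trans e2.symm)

/-- **The formal norm fields of `ModelK` at level `N q q`, `q ∣ N`.** -/
theorem normHyp_modular (hq : q.Prime) (hqN : q ∣ N) :
    NormHyp K q (heckeAlphaBar K (N * q) q).toRingHom.fieldRange
      (heckeBetaBar K (N * q) q).toRingHom.fieldRange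
      (embNorm (heckeAlphaBar K (N * q) q).toRingHom)
      (embNorm (heckeBetaBar K (N * q) q).toRingHom) (normZero K N q) :=
  normHyp_of_square (heckeAlphaBar K (N * q) q) (heckeBetaBar K (N * q) q)
    (heckeAlphaBar K N q) (heckeBetaBar K N q) (alpha_comp_beta K N q)
    (dg_alphaK_of_dvd K hq (Dvd.dvd.mul_left (dvd_refl q) N))
    (dg_betaK_of_dvd K hq (Dvd.dvd.mul_left (dvd_refl q) N)) (dg_betaK_of_dvd K hq hqN)

end Modular

end Fermat.Agent.S45.Mod

end
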