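/-
S45, project CARAYOL-K, block MOD (helper238): `j(q^i z)` AND `j(z)` ARE INTEGRAL OVER EACH OTHER.

* `mem_chart_of_kronPoly`  : `Φ_q(x, y) = 0` (Kronecker form, `Mod.kronPoly`) `⟹ y ∈ chart A₀ x`
                             (`Φ_q` is monic of degree `q + 1` in `Y`, with coefficients in `ℤ[x]`);
* `chain_mem_chart`        : a chain `X 0, …, X k` with `Φ_q(X i, X (i+1)) = 0`, `Ψ` symmetric;
* `jint_of_steps`          : the field `jint` of `Pts.Geo`, from its fields `st_al`, `st_be` and the field `kron` of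
                             `Mod.Tower.Gen`.
-/
import Fermat.Agent.S18.Chart.Overlap
import Fermat.Agent.S36.BP.Build.ChartMap
import Fermat.Agent.S45.Mod.Tower

set_option autoImplicit false

noncomputable section

namespace Fermat.Agent.S45.Mod.JInt

open Polynomial Fermat.Agent.S18 Fermat.Agent.S36.BP.Build

variable {K₀ F : Type*} [Field K₀] [Field F] [Algebra K₀ F]

/-- `Φ_q(a, Y)` as a polynomial in `Y`. -/
def phiY {R : Type*} [CommRing R] (q : ℕ) (ψ : ℕ → ℕ → ℤ) (a : R) : R[X] :=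
  (X - C (a ^ q)) * (X ^ q - C a) +
    C (q : R) * ∑ i ∈ Finset.range (q + 1), ∑ b ∈ Finset.range (q + 1), C ((ψ i b : R) * a ^ i) * X ^ b

theorem monic_phiY {R : Type*} [CommRing R] [Nontrivial R] {q : ℕ} (hq : q ≠ 0) (ψ : ℕ → ℕ → ℤ)
    (a : R) : (phiY q ψ a).Monic := by
  have h1 : ((X - C (a ^ q)) * (X ^ q - C a)).Monic :=
    (monic_X_sub_C _).mul (monic_X_pow_sub_C _ hq)
  have h2 : ((X - C (a ^ q)) * (X ^ q - C a)).natDegree = 1 + q := by
    rw [(monic_X_sub_C _).natDegree_mul (monic_X_pow_sub_C _ hq), natDegree_X_sub_C,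
      natDegree_X_pow_sub_C]
  refine h1.add_of_left (degree_lt_degree ?_)
  rw [h2]
  refine lt_of_le_of_lt (natDegree_C_mul_le _ _) ?_
  refine lt_of_le_of_lt (natDegree_sum_le_of_forall_le _ _ (n := q) fun i _ =>
    natDegree_sum_le_of_forall_le _ _ fun b hb => ?_) (by omega)
  exact (natDegree_C_mul_X_pow_le _ _).trans (Nat.lt_succ_iff.1 (Finset.mem_range.1 hb))

theorem eval₂_phiY {R S : Type*} [CommRing R] [CommRing S] (f : R →+* S) (q : ℕ) (ψ : ℕ → ℕ → ℤ)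
    (a : R) (y : S) : (phiY q ψ a).eval₂ f y = kronPoly q ψ (f a) y := by
  have hI : ∀ n : ℤ, eval₂ f y ((n : ℤ) : R[X]) = (n : S) := fun n => by
    rw [← coe_eval₂RingHom]
    exact map_intCast _ n
  unfold phiY kronPoly
  simp only [eval₂_add, eval₂_mul, eval₂_sub, eval₂_X, eval₂_C, eval₂_pow, eval₂_finsetSum, map_pow,
    eval₂_natCast, hI, map_mul, map_intCast, map_natCast]
  ring

/-- `Φ_q(x, y) = 0 ⟹ y` is integral over `A₀[x]`. -/
theorem mem_chart_of_kronPoly (A₀ : Subring K₀) {q : ℕ} (hq : q ≠ 0) {ψ : ℕ → ℕ → ℤ} {x y : F}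
    (h : kronPoly q ψ x y = 0) : y ∈ chart A₀ x := by
  rw [mem_chart_iff_isIntegral]
  refine ⟨phiY q ψ (⟨x, Overlap.self_mem_polyRing A₀ x⟩ : polyRing A₀ x), monic_phiY hq ψ _, ?_⟩
  rw [eval₂_phiY]
  exact h

/-- a chain of `q`-isogenies. -/
theorem chain_mem_chart (A₀ : Subring K₀) {q : ℕ} (hq : q ≠ 0) {ψ : ℕ → ℕ → ℤ}
    (hψ : ∀ a b, ψ a b = ψ b a) {k : ℕ} (Xs : ℕ → F)
    (h : ∀ i < k, kronPoly q ψ (Xs i) (Xs (i + 1)) = 0) :
    ∀ i ≤ k, Xs i ∈ chart A₀ (Xs 0) ∧ Xs 0 ∈ chart A₀ (Xs i) := by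
  intro i
  induction i with
  | zero => exact fun _ => ⟨self_mem_chart A₀, self_mem_chart A₀⟩
  | succ i ih =>
    intro hi
    obtain ⟨h1, h2⟩ := ih (by omega)
    have h3 := h i (by omega)
    have h4 : kronPoly q ψ (Xs (i + 1)) (Xs i) = 0 := by rw [kronPoly_symm q ψ hψ]; exact h3
    exact ⟨chart_le_of_mem A₀ h1 (mem_chart_of_kronPoly A₀ hq h3),
      chart_le_of_mem A₀ (mem_chart_of_kronPoly A₀ hq h4) h2⟩

/-- more generally any two members of the chain are integral over each other. -/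
theorem chain_mem_chart' (A₀ : Subring K₀) {q : ℕ} (hq : q ≠ 0) {ψ : ℕ → ℕ → ℤ}
    (hψ : ∀ a b, ψ a b = ψ b a) {k : ℕ} (Xs : ℕ → F)
    (h : ∀ i < k, kronPoly q ψ (Xs i) (Xs (i + 1)) = 0) {i i' : ℕ} (hi : i ≤ k) (hi' : i' ≤ k) :
    Xs i ∈ chart A₀ (Xs i') :=
  chart_le_of_mem A₀ (chain_mem_chart A₀ hq hψ Xs h i' hi').2 (chain_mem_chart A₀ hq hψ Xs h i hi).1

/-- all the charts of the chain coincide. -/
theorem chain_chart_eq (A₀ : Subring K₀) {q : ℕ} (hq : q ≠ 0) {ψ : ℕ → ℕ → ℤ}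
    (hψ : ∀ a b, ψ a b = ψ b a) {k : ℕ} (Xs : ℕ → F)
    (h : ∀ i < k, kronPoly q ψ (Xs i) (Xs (i + 1)) = 0) {i i' : ℕ} (hi : i ≤ k) (hi' : i' ≤ k) :
    chart A₀ (Xs i) = chart A₀ (Xs i') :=
  chart_eq_of_mem A₀ (chain_mem_chart' A₀ hq hψ Xs h hi' hi) (chain_mem_chart' A₀ hq hψ Xs h hi hi')

section Steps

variable {F₀ F₁ : Type*} [Field F₀] [Field F₁] [Algebra K₀ F₀] [Algebra K₀ F₁]

/-- the relation of level `1` transported by the steps. -/
theorem kronPoly_steps {k : ℕ} (al0 be0 : F₀ →ₐ[K₀] F₁) (j : F₀) (d : ℕ → F₀ →ₐ[K₀] F)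
    (st : ℕ → F₁ →ₐ[K₀] F) (st_al : ∀ i < k, ∀ y, st i (al0 y) = d i y)
    (st_be : ∀ i < k, ∀ y, st i (be0 y) = d (i + 1) y) {q : ℕ} {ψ : ℕ → ℕ → ℤ}
    (hk : kronPoly q ψ (al0 j) (be0 j) = 0) :
    ∀ i < k, kronPoly q ψ (d i j) (d (i + 1) j) = 0 := by
  intro i hi
  have h := congrArg (st i) hk
  rw [map_zero] at h
  have h2 := map_kronPoly (st i : F₁ →+* F) q ψ (al0 j) (be0 j)
  simp only [AlgHom.coe_toRingHom] at h2
  rw [h, st_al i hi, st_be i hi] at h2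
  exact h2.symm

/-- **The field `jint` of `Pts.Geo`.** -/
theorem jint_of_steps (A₀ : ValuationSubring K₀) {k : ℕ} (al0 be0 : F₀ →ₐ[K₀] F₁) (j : F₀)
    (d : ℕ → F₀ →ₐ[K₀] F) (st : ℕ → F₁ →ₐ[K₀] F) (st_al : ∀ i < k, ∀ y, st i (al0 y) = d i y)
    (st_be : ∀ i < k, ∀ y, st i (be0 y) = d (i + 1) y) {q : ℕ} (hq : q ≠ 0) {ψ : ℕ → ℕ → ℤ}
    (hψ : ∀ a b, ψ a b = ψ b a) (hk : kronPoly q ψ (al0 j) (be0 j) = 0) :
    ∀ i ≤ k, d i j ∈ chart A₀.toSubring (d 0 j) ∧ d 0 j ∈ chart A₀.toSubring (d i j) :=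
  chain_mem_chart A₀.toSubring hq hψ (fun i => d i j) (kronPoly_steps al0 be0 j d st st_al st_be hk)

end Steps

/-! ### The abstract tower -/

section Tow

variable {K : Type} [Field K] (T : Tower K)

/-- `f(z) ↦ f(q^k z)`, from level `1` to level `k + 1`. -/
def sb : ∀ k, T.F 1 →ₐ[K] T.F (k + 1)
  | 0 => AlgHom.id K _
  | k + 1 => (T.be (k + 1)).comp (sb k)

variable {T}

theorem sb_al {q : ℕ} (G : T.Gen q) (k : ℕ) (y : T.F 0) :
    sb T k (T.al 0 y) = T.al k (T.dd k k y) := by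
  induction k with
  | zero => rfl
  | succ k ih =>
    show T.be (k + 1) (sb T k (T.al 0 y)) = _
    rw [ih, T.dd_succ_self, G.comm]

theorem sb_be (k : ℕ) (y : T.F 0) : sb T k (T.be 0 y) = T.be k (T.dd k k y) := by
  induction k with
  | zero => rfl
  | succ k ih =>
    show T.be (k + 1) (sb T k (T.be 0 y)) = _
    rw [ih, T.dd_succ_self]

/-- `Φ_q(j(q^i z), j(q^(i+1) z)) = 0` at every level `k > i`. -/
theorem kronPoly_X {q : ℕ} (G : T.Gen q) {ψ : ℕ → ℕ → ℤ}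
    (hk : kronPoly q ψ (T.al 0 T.j) (T.be 0 T.j) = 0) :
    ∀ k i, i < k → kronPoly q ψ (T.X k i) (T.X k (i + 1)) = 0 := by
  intro k
  induction k with
  | zero => exact fun i hi => absurd hi (Nat.not_lt_zero i)
  | succ k ih =>
    intro i hi
    rcases Nat.lt_or_ge i k with h | h
    · rw [T.X_succ_of_le h.le, T.X_succ_of_le (Nat.succ_le_of_lt h)]
      have h2 := map_kronPoly (T.al k : T.F k →+* T.F (k + 1)) q ψ (T.X k i) (T.X k (i + 1))
      rw [ih i h, map_zero] at h2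
      exact h2.symm
    · obtain rfl : i = k := by omega
      rw [T.X_succ_of_le le_rfl, T.X_succ_self]
      have h2 := map_kronPoly (sb T i : T.F 1 →+* T.F (i + 1)) q ψ (T.al 0 T.j) (T.be 0 T.j)
      rw [hk, map_zero] at h2
      simp only [AlgHom.coe_toRingHom] at h2
      rw [sb_al G, sb_be] at h2
      exact h2.symm

/-- **`j(q^i z)` and `j(q^i' z)` are integral over each other**, at every level of the tower. -/
theorem X_mem_chart {q : ℕ} (G : T.Gen q) (hq : q ≠ 0) (A₀ : Subring K) {k i i' : ℕ} (hi : i ≤ k)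
    (hi' : i' ≤ k) : T.X k i ∈ chart A₀ (T.X k i') := by
  obtain ⟨ψ, hψ, hk⟩ := G.kron
  exact chain_mem_chart' A₀ hq hψ (T.X k) (kronPoly_X G hk k) hi hi'

theorem chart_X_eq {q : ℕ} (G : T.Gen q) (hq : q ≠ 0) (A₀ : Subring K) {k i i' : ℕ} (hi : i ≤ k)
    (hi' : i' ≤ k) : chart A₀ (T.X k i) = chart A₀ (T.X k i') :=
  chart_eq_of_mem A₀ (X_mem_chart G hq A₀ hi' hi) (X_mem_chart G hq A₀ hi hi')

end Tow

end Fermat.Agent.S45.Mod.JInt

end
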