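/-
S45, project CARAYOL-K, block MOD (owner helper18): KRONECKER'S CONGRUENCE FOR THE MODULAR POLYNOMIAL.

`Φ_q = X^(q+1) + Y^(q+1) + ∑_{a,b ≤ q} cPhi q a b X^a Y^b` (library `Lib/ModEq`) is
`(X^q - Y)(X - Y^q) + q Ψ` with `Ψ = ∑_{a,b ≤ q} psi q a b X^a Y^b`, `psi` integral and symmetric.
-/
import Fermat.Agent.Lib.ModEq.Main
import Fermat.Agent.GAL.KLInputs.Base
import Fermat.Agent.GAL.E.Frob
import Fermat.Agent.BAD.Model.Phi.Export
import Fermat.Agent.S45.Mod.Tower

set_option autoImplicit false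

noncomputable section

namespace Fermat.Agent.S45.Mod

open ModularCurve Polynomial Fermat.Agent.Lib.ModEq

/-- the coefficients of `Φ_q - (X^q - Y)(X - Y^q)`. -/
def cK (q a b : ℕ) : ℤ :=
  cPhi q a b + (if a = q ∧ b = q then 1 else 0) + (if a = 1 ∧ b = 1 then 1 else 0)

theorem cK_symm (q a b : ℕ) : cK q a b = cK q b a := by
  unfold cK
  rw [cPhi_symm q a b]
  congr 1
  · congr 1
    by_cases h : a = q ∧ b = q
    · rw [if_pos h, if_pos ⟨h.2, h.1⟩]
    · rw [if_neg h, if_neg fun h' => h ⟨h'.2, h'.1⟩]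
  · by_cases h : a = 1 ∧ b = 1
    · rw [if_pos h, if_pos ⟨h.2, h.1⟩]
    · rw [if_neg h, if_neg fun h' => h ⟨h'.2, h'.1⟩]

theorem sum_ite_aux {S : Type*} [CommRing S] (n a₀ b₀ : ℕ) (ha : a₀ < n) (hb : b₀ < n)
    (g : ℕ → ℕ → S) :
    ∑ a ∈ Finset.range n, ∑ b ∈ Finset.range n, (if a = a₀ ∧ b = b₀ then g a b else 0) =
      g a₀ b₀ := by
  rw [Finset.sum_eq_single a₀, Finset.sum_eq_single b₀]
  · simp
  · intro b _ hb'
    simp [hb']
  · intro h
    exact absurd (Finset.mem_range.2 hb) h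
  · intro a _ ha'
    simp [ha']
  · intro h
    exact absurd (Finset.mem_range.2 ha) h

/-- `Φ_q = (X^q - Y)(X - Y^q) + ∑ cK X^a Y^b`, in every commutative ring. -/
theorem modPoly_eq {S : Type*} [CommRing S] (q : ℕ) (hq : 1 ≤ q) (x y : S) :
    x ^ (q + 1) + y ^ (q + 1) + ∑ a ∈ Finset.range (q + 1), ∑ b ∈ Finset.range (q + 1),
        ((cPhi q a b : ℤ) : S) * x ^ a * y ^ b =
      (x ^ q - y) * (x - y ^ q) + ∑ a ∈ Finset.range (q + 1), ∑ b ∈ Finset.range (q + 1),
        ((cK q a b : ℤ) : S) * x ^ a * y ^ b := by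
  have h1 : ∑ a ∈ Finset.range (q + 1), ∑ b ∈ Finset.range (q + 1),
        ((cK q a b : ℤ) : S) * x ^ a * y ^ b =
      ∑ a ∈ Finset.range (q + 1), ∑ b ∈ Finset.range (q + 1),
        ((cPhi q a b : ℤ) : S) * x ^ a * y ^ b +
      ∑ a ∈ Finset.range (q + 1), ∑ b ∈ Finset.range (q + 1),
        (if a = q ∧ b = q then x ^ a * y ^ b else 0) +
      ∑ a ∈ Finset.range (q + 1), ∑ b ∈ Finset.range (q + 1),
        (if a = 1 ∧ b = 1 then x ^ a * y ^ b else 0) := by
    rw [← Finset.sum_add_distrib, ← Finset.sum_add_distrib]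
    refine Finset.sum_congr rfl fun a _ => ?_
    rw [← Finset.sum_add_distrib, ← Finset.sum_add_distrib]
    refine Finset.sum_congr rfl fun b _ => ?_
    unfold cK
    push_cast
    split_ifs <;> ring
  rw [h1, sum_ite_aux (q + 1) q q (by omega) (by omega),
    sum_ite_aux (q + 1) 1 1 (by omega) (by omega)]
  ring

section ModQ

variable (q : ℕ) [hq : Fact q.Prime]

theorem jq_pow_eq : jqModC (ZMod q) ^ q = qExpand (ZMod q) q (jqModC (ZMod q)) := by
  rw [Fermat.Agent.GAL.E.pow_char_eq_qExpand q, ZMod.frobenius_zmod, coeffMap_id]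

/-- the relation modulo `q` -/
theorem sum_cK_eq_zero :
    ∑ a ∈ Finset.range (q + 1), ∑ b ∈ Finset.range (q + 1),
      ((cK q a b : ℤ) : LaurentSeries (ZMod q)) * jqModC (ZMod q) ^ a *
        (jqModC (ZMod q) ^ q) ^ b = 0 := by
  have h := modEq_map q hq.out (coeffMap (Int.castRingHom (ZMod q)))
  rw [Fermat.Agent.BAD.Model.Phi.coeffMap_qExpand_phi, coeffMap_jqModC, ← jq_pow_eq,
    modPoly_eq q hq.out.one_lt.le] at h
  rw [sub_self, zero_mul, zero_add] at h
  exact h

/-- the polynomial `∑ cK X^(a + q b)` over `𝔽_q` -/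
def polyK : (ZMod q)[X] :=
  ∑ a ∈ Finset.range (q + 1), ∑ b ∈ Finset.range (q + 1),
    C ((cK q a b : ℤ) : ZMod q) * X ^ (a + q * b)

theorem polyK_eq_zero : polyK q = 0 := by
  have ht := Fermat.Agent.GAL.KLInputs.transcendental_jqModC (ZMod q)
  rw [transcendental_iff] at ht
  apply ht
  rw [polyK, map_sum, ← sum_cK_eq_zero q]
  refine Finset.sum_congr rfl fun a _ => ?_
  rw [map_sum]
  refine Finset.sum_congr rfl fun b _ => ?_
  rw [map_mul, aeval_C, map_pow, aeval_X, pow_add, pow_mul, map_intCast, mul_assoc]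

theorem coeff_polyK (n : ℕ) :
    (polyK q).coeff n = ∑ a ∈ Finset.range (q + 1), ∑ b ∈ Finset.range (q + 1),
      (if a + q * b = n then ((cK q a b : ℤ) : ZMod q) else 0) := by
  rw [polyK, finsetSum_coeff]
  refine Finset.sum_congr rfl fun a _ => ?_
  rw [finsetSum_coeff]
  refine Finset.sum_congr rfl fun b _ => ?_
  rw [coeff_C_mul, coeff_X_pow]
  by_cases h : a + q * b = n
  · rw [if_pos h, if_pos h.symm, mul_one]
  · rw [if_neg h, if_neg fun h' => h h'.symm, mul_zero]

theorem sum_eq_zero (n : ℕ) :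
    ∑ a ∈ Finset.range (q + 1), ∑ b ∈ Finset.range (q + 1),
      (if a + q * b = n then ((cK q a b : ℤ) : ZMod q) else 0) = 0 := by
  rw [← coeff_polyK, polyK_eq_zero, coeff_zero]

/-- `1 ≤ a < q`. -/
theorem cK_mid (a b : ℕ) (ha1 : 1 ≤ a) (ha : a < q) (hb : b ≤ q) :
    ((cK q a b : ℤ) : ZMod q) = 0 := by
  have h := sum_eq_zero q (a + q * b)
  have key : ∀ a' b', a' ≤ q → a' + q * b' = a + q * b → a' = a ∧ b' = b := by
    intro a' b' ha' he
    have h1 := congrArg (· % q) he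
    simp only [Nat.add_mul_mod_self_left] at h1
    rw [Nat.mod_eq_of_lt ha] at h1
    have h2 : a' = a := by
      rcases Nat.lt_or_ge a' q with h3 | h3
      · rwa [Nat.mod_eq_of_lt h3] at h1
      · have h4 : a' = q := le_antisymm ha' h3
        rw [h4, Nat.mod_self] at h1
        omega
    subst h2
    exact ⟨rfl, Nat.eq_of_mul_eq_mul_left hq.out.pos (Nat.add_left_cancel he)⟩
  rw [Finset.sum_eq_single a, Finset.sum_eq_single b, if_pos rfl] at h
  · exact h
  · intro b' _ hb'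
    rw [if_neg]
    intro he
    exact hb' (key a b' ha.le he).2
  · intro h'
    exact absurd (Finset.mem_range.2 (Nat.lt_succ_of_le hb)) h'
  · intro a' ha' hne
    refine Finset.sum_eq_zero fun b' _ => ?_
    rw [if_neg]
    intro he
    exact hne (key a' b' (Nat.lt_succ_iff.1 (Finset.mem_range.1 ha')) he).1
  · intro h'
    exact absurd (Finset.mem_range.2 (Nat.lt_succ_of_lt ha)) h'

theorem cK_zero_zero : ((cK q 0 0 : ℤ) : ZMod q) = 0 := by
  have h := sum_eq_zero q 0
  rw [Finset.sum_eq_single 0, Finset.sum_eq_single 0, if_pos (by simp)] at h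
  · exact h
  · intro b' _ hb'
    rw [if_neg]
    intro he
    have : q * b' = 0 := by omega
    rcases Nat.mul_eq_zero.1 this with h1 | h1
    · exact hq.out.ne_zero h1
    · exact hb' h1
  · intro h'
    exact absurd (Finset.mem_range.2 (Nat.succ_pos q)) h'
  · intro a' _ hne
    refine Finset.sum_eq_zero fun b' _ => ?_
    rw [if_neg]
    intro he
    omega
  · intro h'
    exact absurd (Finset.mem_range.2 (Nat.succ_pos q)) h'

theorem cK_q_q : cK q q q = 0 := by
  unfold cK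
  rw [cPhi_top q hq.out, if_pos ⟨rfl, rfl⟩, if_neg fun h => hq.out.ne_one h.1]
  ring

/-- the coefficient of `X^q`: `(q, 0)` and `(0, 1)`. -/
theorem cK_q_zero : ((cK q q 0 : ℤ) : ZMod q) = 0 := by
  have h := sum_eq_zero q q
  have h01 : ((cK q 0 1 : ℤ) : ZMod q) = 0 := by
    rw [cK_symm]
    exact cK_mid q 1 0 le_rfl hq.out.one_lt (Nat.zero_le _)
  have hterm : ∀ a ∈ Finset.range (q + 1), a ≠ q →
      ∑ b ∈ Finset.range (q + 1),
        (if a + q * b = q then ((cK q a b : ℤ) : ZMod q) else 0) = 0 := by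
    intro a ha hne
    have ha' : a < q := lt_of_le_of_ne (Nat.lt_succ_iff.1 (Finset.mem_range.1 ha)) hne
    refine Finset.sum_eq_zero fun b _ => ?_
    by_cases he : a + q * b = q
    · rw [if_pos he]
      have h1 := congrArg (· % q) he
      simp only [Nat.add_mul_mod_self_left, Nat.mod_self] at h1
      rw [Nat.mod_eq_of_lt ha'] at h1
      subst h1
      have h2 : b = 1 := by
        have : q * b = q * 1 := by omega
        exact Nat.eq_of_mul_eq_mul_left hq.out.pos this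
      rw [h2]
      exact h01
    · rw [if_neg he]
  rw [Finset.sum_eq_single q hterm
    (fun h' => absurd (Finset.mem_range.2 (Nat.lt_succ_self q)) h'),
    Finset.sum_eq_single 0, if_pos (by simp)] at h
  · exact h
  · intro b' _ hb'
    rw [if_neg]
    intro he
    have : q * b' = 0 := by omega
    rcases Nat.mul_eq_zero.1 this with h1 | h1
    · exact hq.out.ne_zero h1
    · exact hb' h1
  · intro h'
    exact absurd (Finset.mem_range.2 (Nat.succ_pos q)) h'

/-- **Kronecker's congruence**: all the coefficients of `Φ_q - (X^q - Y)(X - Y^q)` are divisible by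
`q`. -/
theorem dvd_cK (a b : ℕ) (ha : a ≤ q) (hb : b ≤ q) : (q : ℤ) ∣ cK q a b := by
  rw [← ZMod.intCast_zmod_eq_zero_iff_dvd]
  by_cases ha1 : 1 ≤ a ∧ a < q
  · exact cK_mid q a b ha1.1 ha1.2 hb
  by_cases hb1 : 1 ≤ b ∧ b < q
  · rw [cK_symm]
    exact cK_mid q b a hb1.1 hb1.2 ha
  have ha2 : a = 0 ∨ a = q := by omega
  have hb2 : b = 0 ∨ b = q := by omega
  rcases ha2 with rfl | rfl <;> rcases hb2 with rfl | rfl
  · exact cK_zero_zero q
  · rw [cK_symm]
    exact cK_q_zero _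
  · exact cK_q_zero _
  · rw [cK_q_q, Int.cast_zero]

end ModQ

/-- the coefficients of `Ψ = (Φ_q - (X^q - Y)(X - Y^q)) / q`. -/
def psi (q a b : ℕ) : ℤ := cK q a b / q

theorem psi_symm (q a b : ℕ) : psi q a b = psi q b a := by
  unfold psi
  rw [cK_symm]

theorem q_mul_psi (q : ℕ) (hq : q.Prime) (a b : ℕ) (ha : a ≤ q) (hb : b ≤ q) :
    (q : ℤ) * psi q a b = cK q a b :=
  haveI : Fact q.Prime := ⟨hq⟩
  Int.mul_ediv_cancel' (dvd_cK q a b ha hb)

/-- **`Φ_q = kronPoly q (psi q)`** in every commutative ring. -/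
theorem kronPoly_psi {S : Type*} [CommRing S] (q : ℕ) (hq : q.Prime) (x y : S) :
    kronPoly q (psi q) x y =
      x ^ (q + 1) + y ^ (q + 1) + ∑ a ∈ Finset.range (q + 1), ∑ b ∈ Finset.range (q + 1),
        ((cPhi q a b : ℤ) : S) * x ^ a * y ^ b := by
  rw [modPoly_eq q hq.one_lt.le, kronPoly, Finset.mul_sum]
  congr 1
  refine Finset.sum_congr rfl fun a ha => ?_
  rw [Finset.mul_sum]
  refine Finset.sum_congr rfl fun b hb => ?_
  rw [← q_mul_psi q hq a b (Nat.lt_succ_iff.1 (Finset.mem_range.1 ha))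
    (Nat.lt_succ_iff.1 (Finset.mem_range.1 hb))]
  push_cast
  ring

end Fermat.Agent.S45.Mod

end
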