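/-
S45, project CARAYOL-K, block MOD (owner helper18): THE CONCRETE TOWER `F k = FK K (N₀ q^k)` and the
facts which hold at every level (`Tower.Gen`).
-/
import Fermat.Agent.S36.Mod.HalfInst.Degree
import Fermat.Agent.Lib.ModEq.Field
import Fermat.Agent.S45.Mod.Kron

set_option autoImplicit false

noncomputable section

namespace Fermat.Agent.S45.Mod

open ModularCurve Fermat.Agent.S24 Fermat.Agent.S18 Fermat.Agent.S18.Descent Fermat.Agent.S36.Norm
  Fermat.Agent.S36.Mod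

/-- the level `N₀ q^k`, in the form `(..(N₀ * q) * q ..) * q`. -/
def lev (N₀ q : ℕ) : ℕ → ℕ
  | 0 => N₀
  | k + 1 => lev N₀ q k * q

@[simp] theorem lev_zero (N₀ q : ℕ) : lev N₀ q 0 = N₀ := rfl

theorem lev_succ (N₀ q k : ℕ) : lev N₀ q (k + 1) = lev N₀ q k * q := rfl

theorem lev_eq (N₀ q k : ℕ) : lev N₀ q k = N₀ * q ^ k := by
  induction k with
  | zero => simp
  | succ k ih => rw [lev_succ, ih, pow_succ, mul_assoc]

instance neZero_lev (N₀ q : ℕ) [NeZero N₀] [NeZero q] (k : ℕ) : NeZero (lev N₀ q k) :=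
  ⟨by rw [lev_eq]; exact mul_ne_zero (NeZero.ne N₀) (pow_ne_zero _ (NeZero.ne q))⟩

theorem dvd_lev (N₀ q : ℕ) {k : ℕ} (hk : 1 ≤ k) : q ∣ lev N₀ q k := by
  obtain ⟨m, rfl⟩ : ∃ m, k = m + 1 := ⟨k - 1, by omega⟩
  exact dvd_mul_left q _

variable (K : Type) [Field K] [Algebra ℚ K] (N₀ q : ℕ) [NeZero N₀] [NeZero q]

/-- **The concrete tower.** -/
def tower (x₀ : FK K N₀) : Tower K where
  F k := FK K (lev N₀ q k)
  al k := heckeAlphaBar K (lev N₀ q k) q
  be k := heckeBetaBar K (lev N₀ q k) q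
  j := JK K N₀ 1 (one_dvd _)
  x₀ := x₀

variable {K N₀ q}

theorem dg_alpha_of_dvd [Algebra K Kbar] (hq : q.Prime) {N : ℕ} [NeZero N] (h : q ∣ N) :
    dg (heckeAlphaBar K N q).toRingHom = q := by
  rw [dg_alphaK, heckeAlphaBar_eq_inc]
  exact dg_inc_of_dvd hq h

theorem dg_beta_of_dvd' [Algebra K Kbar] (hq : q.Prime) {N : ℕ} [NeZero N] (h : q ∣ N) :
    dg (heckeBetaBar K N q).toRingHom = q := by
  rw [dg_betaK]
  exact dg_beta_of_dvd hq h

theorem dg_alpha_of_not_dvd [Algebra K Kbar] (hq : q.Prime) {N : ℕ} [NeZero N] (h : ¬ q ∣ N) :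
    dg (heckeAlphaBar K N q).toRingHom = q + 1 := by
  rw [dg_alphaK, heckeAlphaBar_eq_inc]
  exact dg_inc_of_not_dvd hq h

theorem dg_beta_of_not_dvd [Algebra K Kbar] (hq : q.Prime) {N : ℕ} [NeZero N] (h : ¬ q ∣ N) :
    dg (heckeBetaBar K N q).toRingHom = q + 1 := by
  rw [dg_betaK]
  have e1 := dg_vv (M := N) (M' := N * q) q hq (dvd_refl (N * q))
  have e2 := dg_inc (dvd_mul_right N q)
  rw [dg_inc_of_not_dvd hq h] at e2
  rw [heckeBetaBar_eq_vv]
  exact Nat.eq_of_mul_eq_mul_right (Nat.pos_of_ne_zero (dedekindPsi_ne_zero N)) (e1.trans e2.symm)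

/-- **The facts which hold at every level.** -/
theorem tower_gen [Algebra K Kbar] (hq : q.Prime) (hqN : ¬ q ∣ N₀) (x₀ : FK K N₀) :
    (tower K N₀ q x₀).Gen q where
  charZero := algebraRat.charZero K
  comm k y := al_be (lev N₀ q k) q y
  dg_al k hk := dg_alpha_of_dvd hq (dvd_lev N₀ q hk)
  dg_be k hk := dg_beta_of_dvd' hq (dvd_lev N₀ q hk)
  dg_al0 := dg_alpha_of_not_dvd hq hqN
  dg_be0 := dg_beta_of_not_dvd hq hqN
  kron := by
    refine ⟨psi q, psi_symm q, ?_⟩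
    rw [kronPoly_psi q hq]
    have h1 : q * 1 ∣ N₀ * q := by rw [mul_one]; exact dvd_mul_left q N₀
    have h2 : 1 * q ∣ N₀ * q := by rw [one_mul]; exact dvd_mul_left q N₀
    have e1 : (tower K N₀ q x₀).al 0 (tower K N₀ q x₀).j = JK K (N₀ * q) 1 (one_dvd _) :=
      al_JK N₀ q 1 (one_dvd _)
    have e2 : (tower K N₀ q x₀).be 0 (tower K N₀ q x₀).j = JK K (N₀ * q) (1 * q) h2 :=
      (be_JK N₀ q 1 (one_dvd _) h1).trans (JK_congr K _ (by ring) _ _)
    rw [e1, e2]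
    exact Lib.ModEq.modEq_JK K q hq (N₀ * q) 1 (one_dvd _) h2

end Fermat.Agent.S45.Mod

end
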