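/-
S45, block MOD, item M2 (helper156).  **`Tower.Base` FOR THE CONCRETE TOWER** `tower K S.N0 S.q x0` (helper18's `Mod/Inst.lean`):
the tables of the vertical valuations at the levels `0`, `1`, `2` are those of `S36/Mod` (`V0`; `V1oo`, `V10`; `V20`, `V11`, `V02`).

* `base_of` : an abstract constructor of `T.Base` (hypotheses in the unfolded form `al 1 (al 0 r)`, ...);
* `base`    : `(tower K S.N0 S.q x0).Base S.B S.q S.V0 ![S.V1oo, S.V10] S.VV`.
-/
import Fermat.Agent.S45.Mod.Inst
import Fermat.Agent.S45.Mod.BaseS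

set_option autoImplicit false
set_option linter.unusedSectionVars false

noncomputable section

namespace Fermat.Agent.S45.Mod.BaseInst

open ModularCurve Fermat.Agent.S24 Fermat.Agent.S18 Fermat.Agent.S36 Fermat.Agent.S36.Mod
  Fermat.Agent.S36.BP

section Abs

variable {K : Type} [Field K] (T : Tower K)

theorem da_two (y : T.F 0) : T.da 2 y = T.al 1 (T.al 0 y) := rfl

theorem db_two (y : T.F 0) : T.db 2 y = T.be 1 (T.be 0 y) := rfl

theorem X_two_two : T.X 2 2 = T.be 1 (T.be 0 T.j) := by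
  rw [T.X_succ_self 1, T.X_succ_self 0]
  rfl

theorem X_two_zero : T.X 2 0 = T.al 1 (T.al 0 T.j) := by
  rw [T.X_succ_of_le (Nat.zero_le 1), T.X_succ_of_le (Nat.zero_le 0)]
  rfl

theorem comap_da_two (W : ValuationSubring (T.F 2)) :
    W.comap (T.da 2).toRingHom = (W.comap (T.al 1).toRingHom).comap (T.al 0).toRingHom := rfl

theorem comap_db_two (W : ValuationSubring (T.F 2)) :
    W.comap (T.db 2).toRingHom = (W.comap (T.be 1).toRingHom).comap (T.be 0).toRingHom := rfl

/-- **Abstract constructor of `T.Base`.** -/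
theorem base_of (A₀ : ValuationSubring K) (q : ℕ) (V0 : ValuationSubring (T.F 0))
    (Voo Vo : ValuationSubring (T.F 1)) (V20 V11 V02 : ValuationSubring (T.F 2)) (τ : T.F 2)
    (hτ : τ = T.be 1 (T.be 0 T.j) - T.al 1 (T.al 0 T.j))
    (base : BaseHyp A₀ q)
    (const0 : V0.comap (algebraMap K (T.F 0)) = A₀)
    (unif0 : IsUnif V0 (q : T.F 0))
    (j_unit : V0.valuation T.j = 1)
    (j_insep : ∀ y : T.F 0, ¬ V0.valuation (y ^ q - T.j) < 1)
    (oo_al : Voo.comap (T.al 0).toRingHom = V0) (o_al : Vo.comap (T.al 0).toRingHom = V0)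
    (oo_be : Voo.comap (T.be 0).toRingHom = V0) (o_be : Vo.comap (T.be 0).toRingHom = V0)
    (compl_al : ∀ W : ValuationSubring (T.F 1), W.comap (T.al 0).toRingHom = V0 → W = Voo ∨ W = Vo)
    (compl_be : ∀ W : ValuationSubring (T.F 1), W.comap (T.be 0).toRingHom = V0 → W = Voo ∨ W = Vo)
    (ne1 : Voo ≠ Vo)
    (unif_oo : IsUnif Voo (q : T.F 1)) (unif_o : IsUnif Vo (q : T.F 1))
    (typeF : Voo.valuation (T.be 0 T.j - T.al 0 T.j ^ q) < 1)
    (typeV : Vo.valuation (T.al 0 T.j - T.be 0 T.j ^ q) < 1)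
    (denseF : ∀ y ∈ Voo, ∃ r : T.F 0, Voo.valuation (T.al 0 r - y) < 1)
    (denseV : ∀ y ∈ Vo, ∃ r : T.F 0, Vo.valuation (T.be 0 r - y) < 1)
    (a20 : V20.comap (T.al 1).toRingHom = Voo) (a11 : V11.comap (T.al 1).toRingHom = Voo)
    (a02 : V02.comap (T.al 1).toRingHom = Vo)
    (b20 : V20.comap (T.be 1).toRingHom = Voo) (b11 : V11.comap (T.be 1).toRingHom = Vo)
    (b02 : V02.comap (T.be 1).toRingHom = Vo)
    (compl_a2 : ∀ W : ValuationSubring (T.F 2),
      (W.comap (T.al 1).toRingHom).comap (T.al 0).toRingHom = V0 →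
        ∃ c, W = (![V20, V11, V02] : Fin 3 → ValuationSubring (T.F 2)) c)
    (compl_b2 : ∀ W : ValuationSubring (T.F 2),
      (W.comap (T.be 1).toRingHom).comap (T.be 0).toRingHom = V0 →
        ∃ c, W = (![V20, V11, V02] : Fin 3 → ValuationSubring (T.F 2)) c)
    (inj2 : Function.Injective (![V20, V11, V02] : Fin 3 → ValuationSubring (T.F 2)))
    (unif20 : IsUnif V20 (q : T.F 2)) (unif21 : IsUnif V11 τ) (unif22 : IsUnif V02 (q : T.F 2))
    (ram21 : V11.valuation τ ^ (q - 1) = V11.valuation (q : T.F 2))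
    (dense20 : ∀ y ∈ V20, ∃ r : T.F 0, V20.valuation (T.al 1 (T.al 0 r) - y) < 1)
    (dense21a : ∀ y ∈ V11, ∃ r : T.F 0, V11.valuation (T.al 1 (T.al 0 r) - y) < 1)
    (dense21b : ∀ y ∈ V11, ∃ r : T.F 0, V11.valuation (T.be 1 (T.be 0 r) - y) < 1)
    (dense22 : ∀ y ∈ V02, ∃ r : T.F 0, V02.valuation (T.be 1 (T.be 0 r) - y) < 1)
    (halfα : Half q τ (T.Ea 1) (T.Na 1) V20 V11 V02)
    (halfβ : Half q τ (T.Eb 1) (T.Nb 1) V02 V11 V20) :
    T.Base A₀ q V0 ![Voo, Vo] ![V20, V11, V02] := by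
  have hX : T.X 2 2 - T.X 2 0 = τ := by rw [X_two_two, X_two_zero, hτ]
  refine
    { base := base
      const0 := const0
      unif0 := unif0
      j_unit := j_unit
      j_insep := j_insep
      comap_al1 := ?_
      comap_be1 := ?_
      complete_al1 := ?_
      complete_be1 := ?_
      inj1 := ?_
      unif1 := ?_
      typeF := typeF
      typeV := typeV
      denseF := denseF
      denseV := denseV
      comap_al2 := ⟨a20, a11, a02⟩
      comap_be2 := ⟨b20, b11, b02⟩
      complete_a2 := fun W hW => compl_a2 W hW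
      complete_b2 := fun W hW => compl_b2 W hW
      inj2 := inj2
      unif20 := unif20
      unif21 := by rw [hX]; exact unif21
      unif22 := unif22
      ram21 := by rw [hX]; exact ram21
      dense20 := dense20
      dense21a := dense21a
      dense21b := dense21b
      dense22 := dense22
      halfα := by rw [hX]; exact halfα
      halfβ := by rw [hX]; exact halfβ }
  · intro c
    fin_cases c
    · exact oo_al
    · exact o_al
  · intro c
    fin_cases c
    · exact oo_be
    · exact o_be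
  · intro W hW
    rcases compl_al W hW with h | h
    · exact ⟨0, h⟩
    · exact ⟨1, h⟩
  · intro W hW
    rcases compl_be W hW with h | h
    · exact ⟨0, h⟩
    · exact ⟨1, h⟩
  · intro i j hij
    fin_cases i <;> fin_cases j
    · rfl
    · exact absurd hij ne1
    · exact absurd hij.symm ne1
    · rfl
  · intro c
    fin_cases c
    · exact unif_oo
    · exact unif_o

end Abs

variable {K K' : Type} [Field K] [Field K'] [Algebra ℚ K] [Algebra ℚ K'] [Algebra K Kbar]
  [Algebra K' Kbar] (S : Setup K K')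

theorem tower_j (x0 : S.F0) : (tower K S.N0 S.q x0).j = S.j0 := S.valCusp_j0_eq.symm

/-- **The tables of the levels `0`, `1`, `2` of the concrete tower.** -/
theorem base (x0 : S.F0) (hB : BaseHyp S.B S.q) :
    (tower K S.N0 S.q x0).Base S.B S.q S.V0 ![S.V1oo, S.V10] S.VV :=
  base_of (tower K S.N0 S.q x0) S.B S.q S.V0 S.V1oo S.V10 S.V20 S.V11 S.V02 S.tau0
    (by rw [tower_j]; exact BaseS.tau0_eq S) hB
    (BaseS.const0 S hB.unif) S.isUnif_V0 (by rw [tower_j]; exact BaseS.j_unit S)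
    (by rw [tower_j]; exact BaseS.j_insep S)
    S.V1oo_comap_al0 S.V10_comap_al0 S.V1oo_comap_be0 S.V10_comap_be0 S.complete1 S.complete1'
    S.V1oo_ne_V10 S.isUnif_V1oo S.isUnif_V10 (by rw [tower_j]; exact BaseS.typeF S)
    (by rw [tower_j]; exact BaseS.typeV S) S.dense1oo S.dense10
    S.V20_comap_al1 S.V11_comap_al1 S.V02_comap_al1 S.V20_comap_be1 S.V11_comap_be1
    S.V02_comap_be1
    (fun W hW => S.complete_a W ((S.comap_ia W).trans hW))
    (fun W hW => S.complete_b W ((S.comap_ib W).trans hW))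
    S.VV_injective S.isUnif_V20 S.isUnif_V11 S.isUnif_V02 S.ram_V11 S.dense0a S.dense1a S.dense1b
    S.dense2b S.halfα S.halfβ

end Fermat.Agent.S45.Mod.BaseInst

end
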