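/-
S45, block MOD, item M2 (helper156).  `Tower.Base` for the concrete tower, WITHOUT `Setup`:
for every `K`, `A₀`, `q`, `N₀` (`BaseHyp A₀ q`, `q ∤ N₀`) the tables of the levels `0`, `1`, `2` exist.
-/
import Fermat.Agent.S45.Mod.BaseInst
import Fermat.Agent.S36.Mod.Inst

set_option autoImplicit false

noncomputable section

namespace Fermat.Agent.S45.Mod.BaseInst

open ModularCurve Fermat.Agent.S24 Fermat.Agent.S18 Fermat.Agent.S36 Fermat.Agent.S36.Mod
  Fermat.Agent.S36.BP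

/-- **M2, final form.** -/
theorem exists_base (K : Type) [Field K] [Algebra ℚ K] [Algebra K Kbar] (A₀ : ValuationSubring K)
    (q N₀ : ℕ) [NeZero N₀] [NeZero q] (hb : BaseHyp A₀ q) (hqN : ¬ q ∣ N₀) (x₀ : FK K N₀) :
    ∃ (V0 : ValuationSubring ((tower K N₀ q x₀).F 0))
      (V1 : Fin 2 → ValuationSubring ((tower K N₀ q x₀).F 1))
      (V2 : Fin 3 → ValuationSubring ((tower K N₀ q x₀).F 2)),
      (tower K N₀ q x₀).Base A₀ q V0 V1 V2 := by
  obtain ⟨K', _, _, _, S, rfl, rfl, rfl⟩ := exists_setup K A₀ q N₀ hb hqN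
  exact ⟨S.V0, ![S.V1oo, S.V10], S.VV, base S x₀ hb⟩

end Fermat.Agent.S45.Mod.BaseInst

end
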