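/-
S45, block MOD, item M2 (helper156).  The facts on the levels `0`, `1` of `S : S36.Mod.Setup K K'` which are
not yet in `S36/Mod`: constants, `j` is a unit and not a `q`-th power modulo `V0`, the Frobenius congruences
on the two components of level `N0 q`, `tau0 = j(q² z) - j(z)`.
-/
import Fermat.Agent.S36.Mod.Val.Main
import Fermat.Agent.S36.Mod.Val.Cusp

set_option autoImplicit false
set_option linter.unusedSectionVars false

noncomputable section

namespace Fermat.Agent.S45.Mod.BaseS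

open ModularCurve Fermat.Agent.S24 Fermat.Agent.S18 Fermat.Agent.S36 Fermat.Agent.S36.Mod

/-- abstract: the constants of a vertical valuation ring. -/
theorem comap_const_aux {K F : Type*} [Field K] [Field F] [Algebra K F] (B : ValuationSubring K)
    (V : ValuationSubring F) (ϖ : K) (hB : IsUnif B ϖ) (h1 : ∀ a ∈ B, algebraMap K F a ∈ V)
    (h2 : (algebraMap K F ϖ)⁻¹ ∉ V) : V.comap (algebraMap K F) = B := by
  ext a
  constructor
  · intro ha
    by_contra hn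
    have ha' : algebraMap K F a ∈ V := ha
    have h3 : a⁻¹ ∈ B := (B.mem_or_inv_mem a).resolve_left hn
    have h4 : a⁻¹ / ϖ ∈ B := hB.div_mem h3 (by rwa [inv_inv])
    have h5 := V.mul_mem _ _ ha' (h1 _ h4)
    have ha0 : a ≠ 0 := fun h => hn (by rw [h]; exact B.zero_mem)
    apply h2
    have h6 : algebraMap K F a * algebraMap K F (a⁻¹ / ϖ) = (algebraMap K F ϖ)⁻¹ := by
      rw [← map_mul, ← map_inv₀]
      congr 1
      field_simp
    rwa [h6] at h5
  · intro ha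
    exact h1 a ha

/-- abstract: transport of a congruence along an involution. -/
theorem val_comap_aux {F : Type*} [Field F] (V V' : ValuationSubring F) (w : F →+* F)
    (h : V.comap w = V') (x : F) (hx : V.valuation (w x) < 1) : V'.valuation x < 1 := by
  have h1 : w x ∈ V.nonunits := hx
  show x ∈ V'.nonunits
  rw [IntEmb.mem_nonunits_iff_aux] at h1 ⊢
  rcases h1 with h1 | h1
  · left
    exact (map_eq_zero w).1 h1
  · right
    intro h2
    apply h1
    rw [← map_inv₀]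
    rw [← h] at h2
    exact h2

variable {K K' : Type*} [Field K] [Field K'] [Algebra ℚ K] [Algebra ℚ K'] [Algebra K Kbar]
  [Algebra K' Kbar] (S : Setup K K')

theorem const0 (hB : IsUnif S.B ((S.q : ℕ) : K)) : S.V0.comap (algebraMap K S.F0) = S.B :=
  comap_const_aux S.B S.V0 _ hB S.const_mem_V0 (by
    rw [map_natCast]
    exact S.isUnif_V0.inv_notMem)

theorem j0_mem : S.j0 ∈ S.V0 := by
  rw [S.valCusp_j0_eq]
  exact S.JK_mem_V0 1 _

theorem r0_j0 : S.r0 ⟨S.j0, j0_mem S⟩ = S.jb 1 := by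
  have h : (⟨S.j0, j0_mem S⟩ : S.V0) = ⟨_, S.JK_mem_V0 1 (one_dvd _)⟩ :=
    Subtype.ext S.valCusp_j0_eq
  rw [h, S.r0_JK]

theorem j_unit : S.V0.valuation S.j0 = 1 :=
  Setup.cuspAux_val_eq_one S.r0 S.r0_eq_zero_iff (j0_mem S) (by rw [r0_j0]; exact S.jb_ne_zero 1)

theorem j_insep (y : S.F0) : ¬ S.V0.valuation (y ^ S.q - S.j0) < 1 := by
  intro h
  have h1 : y ^ S.q - S.j0 ∈ S.V0 := (S.V0.valuation_le_one_iff _).1 h.le
  have h2 : y ^ S.q ∈ S.V0 := by
    have := S.V0.add_mem _ _ h1 (j0_mem S)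
    simpa using this
  have hy : y ∈ S.V0 := (IsUnif.pow_mem_iff S.V0 S.hq.ne_zero).1 h2
  have h3 : S.r0 (⟨y, hy⟩ ^ S.q - ⟨S.j0, j0_mem S⟩) = 0 :=
    (S.r0_eq_zero_iff _).2 (S.V0.mem_nonunits_iff.2 h)
  rw [map_sub, map_pow, r0_j0, sub_eq_zero] at h3
  have h4 := congrArg HahnSeries.order h3
  rw [S.order_jb, HahnSeries.order_pow] at h4
  have h5 : (S.q : ℤ) ∣ 1 := by
    refine ⟨-(S.r0 ⟨y, hy⟩).order, ?_⟩
    have : (S.q : ℤ) * (S.r0 ⟨y, hy⟩).order = -((1 : ℕ) : ℤ) := by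
      rw [← h4]; simp
    push_cast at this
    linarith
  have h6 : S.q ∣ 1 := by exact_mod_cast h5
  exact S.hq.one_lt.ne' (Nat.dvd_one.1 h6)

theorem typeF : S.V1oo.valuation (S.be0 S.j0 - S.al0 S.j0 ^ S.q) < 1 := by
  rw [S.valCusp_be0_j0, S.valCusp_al0_j0]
  have hq : S.J1q ∈ S.V1oo := S.JK_mem_V1oo _ _
  have h1 : S.J1one ∈ S.V1oo := S.JK_mem_V1oo _ _
  have e1 : S.r1oo ⟨S.J1q, hq⟩ = S.jb (1 * S.q) := S.r1oo_JK _ _
  have e2 : S.r1oo ⟨S.J1one, h1⟩ = S.jb 1 := S.r1oo_JK _ _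
  have h3 : S.r1oo (⟨S.J1q, hq⟩ - ⟨S.J1one, h1⟩ ^ S.q) = 0 := by
    rw [map_sub, map_pow, e1, e2, ← S.jb_q_mul, sub_eq_zero]
    congr 1
    ring
  exact S.V1oo.mem_nonunits_iff.1 ((S.r1oo_eq_zero_iff _).1 h3)

theorem typeV : S.V10.valuation (S.al0 S.j0 - S.be0 S.j0 ^ S.q) < 1 := by
  refine val_comap_aux S.V1oo S.V10 S.w1.toRingHom S.V1oo_comap_w1 _ ?_
  have h : S.w1.toRingHom (S.al0 S.j0 - S.be0 S.j0 ^ S.q) = S.be0 S.j0 - S.al0 S.j0 ^ S.q := by
    show S.w1 (S.al0 S.j0 - S.be0 S.j0 ^ S.q) = _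
    rw [map_sub, map_pow, S.w1_al0, S.w1_be0]
  rw [h]
  exact typeF S

theorem tau0_eq : S.tau0 = S.be1 (S.be0 S.j0) - S.al1 (S.al0 S.j0) := by
  have h1 := S.ib_j0
  have h2 := S.ia_j0
  rw [Setup.ib_apply] at h1
  rw [Setup.ia_apply] at h2
  rw [h1, h2]
  rfl

end Fermat.Agent.S45.Mod.BaseS

end
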