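/-
S45, project CARAYOL-K, block MOD, node M4 (cusps), helper16.

The cusp fields of the interface `S45/Pts/Defs.lean` (`B1.coeff_mem`, `B1.coeff_unit`, `B1.rel`, `B1.rel'`,
`B2.ram_j`):
* `exists_cusp_rel_of` : the four cusp fields of `Pts.B1` for `al0 = heckeAlphaBar K N₀ q`,
                         `be0 = heckeBetaBar K N₀ q` and ANY `j : FK K N₀` with the expansion `jqModC K`;
* `exists_cusp_rel`    : `j = S18.jK K N₀`;   `exists_cusp_rel_JK` : `j = S36.Mod.JK K N₀ 1 _`;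
* `Setup.exists_cusp_rel` : the same for `S : S36.Mod.Setup K K'` (`S.al0`, `S.be0`, `S.B`, `S.q`);
* `ram_j_of_sub`       : `B2.ram_j` from the additive uniformiser `j(q² z) - j(z)` of the middle component.
-/
import Fermat.Agent.S45.Pts.Defs
import Fermat.Agent.S18.ModDefs
import Fermat.Agent.S36.Mod.Setup
import Fermat.Agent.BAD.Model.Phi.Export
import Fermat.Prelude.Def_ModularCurve_HeckeOperator

set_option autoImplicit false

noncomputable section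

namespace Fermat.Agent.S45.Mod

open ModularCurve Fermat.Agent.S24 Fermat.Agent.S24.B Fermat.Agent.S18 Fermat.Agent.S36.BP
  Fermat.Agent.BAD.Model

theorem coe_jK_eq (K : Type*) [Field K] [Algebra ℚ K] (M : ℕ) :
    ((jK K M : FK K M) : LaurentSeries K) = jqModC K := by
  show coeffEmb K jq = jqModC K
  rw [coeffEmb, ← jqModC_rat, coeffMap_jqModC]

theorem coe_JK_one_eq (K : Type*) [Field K] [Algebra ℚ K] (M : ℕ) (h : 1 ∣ M) :
    ((S36.Mod.JK K M 1 h : FK K M) : LaurentSeries K) = jqModC K := by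
  rw [S36.Mod.coe_JK, S36.Mod.Js, qExpand_one_apply, coeffEmb, ← jqModC_rat, coeffMap_jqModC]

/-- **The cusp fields of `Pts.B1`**, for any `j` with the right expansion. -/
theorem exists_cusp_rel_of (K : Type) [Field K] [Algebra ℚ K] (A₀ : ValuationSubring K) (q N₀ : ℕ)
    [NeZero q] [NeZero N₀] (hq : q.Prime) :
    ∃ cf : ℕ → ℕ → K, (∀ a b, cf a b ∈ A₀) ∧ A₀.valuation (cf 0 0) = 1 ∧
      ∀ j : FK K N₀, ((j : FK K N₀) : LaurentSeries K) = jqModC K →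
      Rel q cf (heckeAlphaBar K N₀ q j)⁻¹ (heckeBetaBar K N₀ q j)⁻¹ ∧
      Rel q cf (heckeBetaBar K N₀ q j)⁻¹ (heckeAlphaBar K N₀ q j)⁻¹ := by
  have : Fact q.Prime := ⟨hq⟩
  obtain ⟨c', h0, hrel⟩ := Phi.exists_rel q
  refine ⟨fun a b => ((c' a b : ℤ) : K), fun a b => intCast_mem A₀ _, ?_, fun j hj => ?_⟩
  · show A₀.valuation ((c' 0 0 : ℤ) : K) = 1
    rw [h0]
    simp
  · have e1 : ((heckeAlphaBar K N₀ q j : FK K (N₀ * q)) : LaurentSeries K) =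
        qExpand K 1 (jqModC K) := by
      rw [coe_heckeAlphaBar, hj, qExpand_one_apply]
    have e2 : ((heckeBetaBar K N₀ q j : FK K (N₀ * q)) : LaurentSeries K) =
        qExpand K 1 (qExpand K q (jqModC K)) := by
      rw [coe_heckeBetaBar, hj, qExpand_one_apply]
    exact hrel K (FK K (N₀ * q)) K (FK K (N₀ * q)).val.toRingHom 1
      (heckeAlphaBar K N₀ q j) (heckeBetaBar K N₀ q j) e1 e2

/-- `j = S18.jK K N₀`. -/
theorem exists_cusp_rel (K : Type) [Field K] [Algebra ℚ K] (A₀ : ValuationSubring K) (q N₀ : ℕ)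
    [NeZero q] [NeZero N₀] (hq : q.Prime) :
    ∃ cf : ℕ → ℕ → K, (∀ a b, cf a b ∈ A₀) ∧ A₀.valuation (cf 0 0) = 1 ∧
      Rel q cf (heckeAlphaBar K N₀ q (jK K N₀))⁻¹ (heckeBetaBar K N₀ q (jK K N₀))⁻¹ ∧
      Rel q cf (heckeBetaBar K N₀ q (jK K N₀))⁻¹ (heckeAlphaBar K N₀ q (jK K N₀))⁻¹ := by
  obtain ⟨cf, h1, h2, h3⟩ := exists_cusp_rel_of K A₀ q N₀ hq
  exact ⟨cf, h1, h2, h3 _ (coe_jK_eq K N₀)⟩

/-- `j = S36.Mod.JK K N₀ 1 _`. -/
theorem exists_cusp_rel_JK (K : Type) [Field K] [Algebra ℚ K] (A₀ : ValuationSubring K) (q N₀ : ℕ)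
    [NeZero q] [NeZero N₀] (hq : q.Prime) (h : 1 ∣ N₀) :
    ∃ cf : ℕ → ℕ → K, (∀ a b, cf a b ∈ A₀) ∧ A₀.valuation (cf 0 0) = 1 ∧
      Rel q cf (heckeAlphaBar K N₀ q (S36.Mod.JK K N₀ 1 h))⁻¹
        (heckeBetaBar K N₀ q (S36.Mod.JK K N₀ 1 h))⁻¹ ∧
      Rel q cf (heckeBetaBar K N₀ q (S36.Mod.JK K N₀ 1 h))⁻¹
        (heckeAlphaBar K N₀ q (S36.Mod.JK K N₀ 1 h))⁻¹ := by
  obtain ⟨cf, h1, h2, h3⟩ := exists_cusp_rel_of K A₀ q N₀ hq
  exact ⟨cf, h1, h2, h3 _ (coe_JK_one_eq K N₀ h)⟩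

/-- The cusp fields of `Pts.B1` for a `S36.Mod.Setup`. -/
theorem _root_.Fermat.Agent.S36.Mod.Setup.exists_cusp_rel {K K' : Type} [Field K] [Field K']
    [Algebra ℚ K] [Algebra ℚ K'] [Algebra K Kbar] [Algebra K' Kbar] (S : S36.Mod.Setup K K') :
    ∃ cf : ℕ → ℕ → K, (∀ a b, cf a b ∈ S.B) ∧ S.B.valuation (cf 0 0) = 1 ∧
      ∀ j : S.F0, ((j : S.F0) : LaurentSeries K) = jqModC K →
      Rel S.q cf (S.al0 j)⁻¹ (S.be0 j)⁻¹ ∧ Rel S.q cf (S.be0 j)⁻¹ (S.al0 j)⁻¹ :=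
  exists_cusp_rel_of K S.B S.q S.N0 S.hq

/-- `B2.ram_j` from the additive uniformiser `j(q² z) - j(z)` of the middle component. -/
theorem ram_j_of_sub {K₀ F₀ F₁ F₂ : Type*} [Field K₀] [Field F₀] [Field F₁] [Field F₂]
    [Algebra K₀ F₀] [Algebra K₀ F₁] [Algebra K₀ F₂] (al0 be0 : F₀ →ₐ[K₀] F₁)
    (al1 be1 : F₁ →ₐ[K₀] F₂) (W : ValuationSubring F₂) (j : F₀) (q : ℕ)
    (h0 : W.valuation (al1 (al0 j)) = 1)
    (h : W.valuation (be1 (be0 j) - al1 (al0 j)) ^ (q - 1) = W.valuation (q : F₂)) :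
    W.valuation (Pts.z2 al0 be0 al1 be1 j) ^ (q - 1) = W.valuation (q : F₂) := by
  have hne : al1 (al0 j) ≠ 0 := by
    intro h1
    rw [h1, map_zero] at h0
    exact zero_ne_one h0
  have e : Pts.z2 al0 be0 al1 be1 j = (be1 (be0 j) - al1 (al0 j)) * (al1 (al0 j))⁻¹ := by
    unfold Pts.z2
    field_simp
  rw [e, map_mul, map_inv₀, h0, inv_one, mul_one, h]

end Fermat.Agent.S45.Mod

end
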