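/-
S45, project CARAYOL-K, block MOD, item M5 (helper159): THE `t`-FIELDS of `Pts.B0`, `Pts.B1` for the instance
`S : S36.Mod.Setup K K'`, GENERIC in `Gen.Two.Haupt' S Tz t` (any `q`; `HauptData` gives it by `haupt'_of_hauptData`).
* `intOver_mem_chart`  : `IntOver j y → y ∈ chart A j`;
* `t_unit`             : `S.V0.valuation t = 1`;
* `t_int`, `t_int'`    : `t, t⁻¹ ∈ chart S.B (jj K S.N0)`;
* `frob_t`             : `S.V1oo.valuation (be0 t - al0 t ^ q) < 1`;
* `div_le_one_of_lt`   : a nonunit is divisible by the uniformiser;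
* `kron_t`             : `S.V1oo.valuation ((be0 t - al0 t ^ q) / q) ≤ 1`.
-/
import Fermat.Agent.S45.Gen.Two
import Fermat.Agent.S45.Pts.Defs
import Fermat.Agent.S36.Mod.Elts.Level1
import Fermat.Agent.S36.Mod.Val.Level1a
import Fermat.Agent.S36.BP.Build.ChartMap

set_option autoImplicit false
set_option linter.unusedSectionVars false

noncomputable section

namespace Fermat.Agent.S45.Mod.PtsT

open ModularCurve Fermat.Agent.S24 Fermat.Agent.S18 Fermat.Agent.S18.Vert Fermat.Agent.S36.Mod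
  Fermat.Agent.S36.BP Fermat.Agent.S18.Descent Fermat.Agent.BAD.Model.EtaInst
  Fermat.Agent.S45.Gen.Two
open Fermat.Agent.Lib.Hauptmodul (toL dilZ etaProdInv)

section Abs

variable {K₀ F : Type*} [Field K₀] [Field F] [Algebra K₀ F]

theorem self_mem_chart (A₀ : Subring K₀) (x : F) : x ∈ chart A₀ x := by
  refine polyRing_le_chart A₀ x ((mem_polyRing_iff A₀ x x).2 ⟨Polynomial.X, fun i => ?_, by simp⟩)
  rw [Polynomial.coeff_X]
  split_ifs
  · exact A₀.one_mem
  · exact A₀.zero_mem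

theorem const_mem_chart (A₀ : Subring K₀) (x : F) {a : K₀} (ha : a ∈ A₀) :
    algebraMap K₀ F a ∈ chart A₀ x := by
  refine polyRing_le_chart A₀ x ((mem_polyRing_iff A₀ x _).2 ⟨Polynomial.C a, fun i => ?_, by simp⟩)
  rw [Polynomial.coeff_C]
  split_ifs
  · exact ha
  · exact A₀.zero_mem

/-- an element integral over `ℤ[j]` lies in the chart of `j`. -/
theorem intOver_mem_chart (A₀ : Subring K₀) {j y : F} (h : IntOver j y) : y ∈ chart A₀ j :=
  IntOver.mem (fun z hz => mem_chart_of_isIntegral_chart A₀ j z hz) (self_mem_chart A₀ j) h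

/-- a nonunit is divisible by the uniformiser. -/
theorem div_le_one_of_lt {V : ValuationSubring F} {ϖ a : F} (hV : IsUnif V ϖ)
    (ha : V.valuation a < 1) : V.valuation (a / ϖ) ≤ 1 := by
  rcases eq_or_ne a 0 with rfl | ha0
  · rw [zero_div, map_zero]; exact zero_le_one
  rw [ValuationSubring.valuation_le_one_iff]
  refine hV.div_mem ((V.valuation_le_one_iff _).1 ha.le) fun hinv => ?_
  have h1 := (V.valuation_le_one_iff _).2 hinv
  rw [map_inv₀] at h1
  have h0 : V.valuation a ≠ 0 := (map_ne_zero _).2 ha0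
  have h2 : 1 ≤ V.valuation a := (inv_le_one₀ (zero_lt_iff.2 h0)).1 h1
  exact absurd ha (not_lt.2 h2)

end Abs

variable {K K' : Type*} [Field K] [Field K'] [Algebra ℚ K] [Algebra ℚ K'] [Algebra K Kbar]
  [Algebra K' Kbar] {S : Setup K K'} {Tz : PowerSeries ℤ} {t : S.F0}

theorem e0_t (H : Haupt' S Tz t) :
    S.e0.toHom t = inc S.B (HahnSeries.single (-1 : ℤ) (1 : S.B) * toL S.B Tz) := by
  have h1 : inc S.B (HahnSeries.single (-1 : ℤ) (1 : S.B)) = HahnSeries.single (-1 : ℤ) (1 : K) :=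
    coeffMap_single _ _ _
  have h2 : inc S.B (toL S.B Tz) = toL K Tz := coeffMap_toL _ _
  rw [S.e0_apply, H.coe, map_mul, h1, h2]

theorem red_t (S : Setup K K') (Tz : PowerSeries ℤ) :
    red S.B (HahnSeries.single (-1 : ℤ) (1 : S.B) * toL S.B Tz) =
      HahnSeries.single (-1 : ℤ) (1 : IsLocalRing.ResidueField S.B) * toL _ Tz := by
  rw [map_mul]
  congr 1
  · exact (coeffMap_single _ _ _).trans (by rw [map_one])
  · exact coeffMap_toL _ _

theorem t_unit (H : Haupt' S Tz t) : S.V0.valuation t = 1 := by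
  refine Unif_valuation_eq_one_of_inc S.e0 ?_ (e0_t H)
  rw [red_t]
  exact left_ne_zero_of_mul_eq_one (ZExp_single_mul _ H.const)

theorem t_ne_zero (H : Haupt' S Tz t) : t ≠ 0 := by
  intro h
  have := t_unit H
  rw [h, map_zero] at this
  exact zero_ne_one this

theorem t_int (H : Haupt' S Tz t) : t ∈ chart S.B.toSubring (jj K S.N0) :=
  intOver_mem_chart _ H.int

theorem t_int' (H : Haupt' S Tz t) : t⁻¹ ∈ chart S.B.toSubring (jj K S.N0) := by
  obtain ⟨m, hm, hint⟩ := H.int'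
  have hm0 : m ≠ 0 := by
    rintro rfl
    rw [Nat.coprime_zero_left] at hm
    exact S.hq.one_lt.ne' hm
  have hmK : ((m : ℕ) : K) ≠ 0 := by
    have : CharZero K := algebraRat.charZero K
    exact Nat.cast_ne_zero.2 hm0
  have hmF : ((m : ℕ) : S.F0) ≠ 0 := by
    rw [← map_natCast (algebraMap K S.F0)]
    exact (map_ne_zero _).2 hmK
  have e : t⁻¹ = algebraMap K S.F0 ((m : ℕ) : K)⁻¹ * ((m : S.F0) * t⁻¹) := by
    rw [map_inv₀, map_natCast, ← mul_assoc, inv_mul_cancel₀ hmF, one_mul]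
  rw [e]
  exact mul_mem (const_mem_chart _ _ (ZInt_inv_natCast_mem S hm)) (intOver_mem_chart _ hint)

/-- the Frobenius congruence `t(q z) ≡ t(z)^q` on the component `∞` of level `N0 q`. -/
theorem frob_t (H : Haupt' S Tz t) : S.V1oo.valuation (S.be0 t - S.al0 t ^ S.q) < 1 := by
  have hchar : CharP (IsLocalRing.ResidueField S.B) S.q := Y20_charP S
  have : Fact S.q.Prime := ⟨S.hq⟩
  set P : LaurentSeries S.B := HahnSeries.single (-1 : ℤ) (1 : S.B) * toL S.B Tz with hP
  have h1 : S.e1oo.toHom (S.be0 t) = inc S.B (qExpand S.B S.q P) := by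
    rw [S.e1oo_be0, e0_t H]
    exact (Y20_coeffMap_qExpand _ _ _).symm
  have h2 : S.e1oo.toHom (S.al0 t ^ S.q) = inc S.B (P ^ S.q) := by
    rw [map_pow, S.e1oo_al0, e0_t H, map_pow]
  refine val_sub_lt_one_of_red_eq S.e1oo ?_ h1 h2
  have h3 : red S.B (qExpand S.B S.q P) = qExpand _ S.q (red S.B P) := Y20_coeffMap_qExpand _ _ _
  rw [h3, map_pow, hP, red_t, Fermat.Agent.GAL.E.pow_char_eq_qExpand S.q,
    map_mul (coeffMap (frobenius (IsLocalRing.ResidueField S.B) S.q)), coeffMap_single,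
    map_one (frobenius (IsLocalRing.ResidueField S.B) S.q), coeffMap_toL]

theorem kron_t (H : Haupt' S Tz t) :
    S.V1oo.valuation ((S.be0 t - S.al0 t ^ S.q) / ((S.q : ℕ) : S.F1)) ≤ 1 :=
  div_le_one_of_lt S.isUnif_V1oo (frob_t H)

end Fermat.Agent.S45.Mod.PtsT

end
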