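/-
S45, project CARAYOL-K, block MOD, item M5 (helper159): THE INSTANCE OF `Pts.B0`, `Pts.B1`, `Pts.B2` FOR
`S : S36.Mod.Setup K K'`, GENERIC in the modular unit `x` (`UnitData S Gz ε x`), the modular unit `t` (`Gen.Two.Haupt' S Tz t`)
and the datum `(κ, e₃)` of the middle component; then `q = 2` (`t = 1/h₃`, `κ = 1`, `e₃ = 1`) and `q` odd
(`t = t₄`, `κ = Y 0 * Y 2`, `e₃ = - ε`).
  `F₀ F₁ F₂ = S.F0 S.F1 S.F2`, `V0 = S.V0`, `V1 = ![S.V1oo, S.V10]`, `V2 = S.VV`, `j = JK K S.N0 1 _`, `w1 = S.w1`.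
* `fin4`, `fin9`  : `Setup.BaseRel` for an ARBITRARY target field;
* `b0_of`, `b1_of`, `b2_of` : the generic instances;
* `exists_pts_two`, `exists_pts_odd`, `exists_pts` : the final statements.
-/
import Fermat.Agent.S45.Mod.PtsT
import Fermat.Agent.S45.Mod.CuspB
import Fermat.Agent.S45.Mod.BaseS
import Fermat.Agent.S45.Gen.FrobInst
import Fermat.Agent.S36.Inst.Base

set_option autoImplicit false
set_option linter.unusedSectionVars false

noncomputable section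

namespace Fermat.Agent.S45.Mod.PtsTwo

open ModularCurve Fermat.Agent.S24 Fermat.Agent.S18 Fermat.Agent.S18.Vert Fermat.Agent.S36.Mod
  Fermat.Agent.S36.BP Fermat.Agent.S18.Descent Fermat.Agent.BAD.Model Fermat.Agent.BAD.Model.EtaInst
  Fermat.Agent.S45.Gen.Two Fermat.Agent.Lib.Hauptmodul Fermat.Agent.S36.Mod.Base
  Fermat.Agent.S36.Inst

variable {K K' : Type} [Field K] [Field K'] [Algebra ℚ K] [Algebra ℚ K'] [Algebra K Kbar]
  [Algebra K' Kbar] (S : Setup K K')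

theorem jj_eq : jj K S.N0 = S.j0 := S.valCusp_j0_eq.symm

/-! ### `BaseRel` for an arbitrary target field -/

section Fin

variable {F : Type*} [Field F] [Algebra K F]

theorem runit_natCast' {R : Subring F} (hR : IsPt S.B R) {n : ℕ} (h : n.Coprime S.q) :
    RUnit R ((n : ℕ) : F) := by
  have := hR.runit_const (S.valuation_natCast_eq_one h)
  rwa [map_natCast] at this

theorem fin4 (h4 : 4 ∣ S.N0) (hq : ¬ 2 ∣ S.q) (φ : S.F0 →ₐ[K] F) (R : Subring F)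
    (hR : IsPt S.B R) (h : φ (jj K S.N0) ∈ R ∨ (φ (jj K S.N0))⁻¹ ∈ rad R) :
    φ ((baseData4 S.N0 S.q h4 hq).xK K) ∈ R ∨ (φ ((baseData4 S.N0 S.q h4 hq).xK K))⁻¹ ∈ R := by
  rw [jj_eq] at h
  rw [baseData4_xK]
  have h2 : RUnit R (2 : F) := by
    have := runit_natCast' S hR (n := 2) ((Nat.Prime.coprime_iff_not_dvd Nat.prime_two).mpr hq)
    simpa using this
  have hrel := congrArg φ (S.j0_mul_h4 h4)
  simp only [map_mul, map_add, map_pow, map_one, map_ofNat] at hrel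
  have key := hR.locNor.fin_iff_level4 h2 hrel
  rw [← fin_iff]
  exact key.mp h

theorem fin9 (h9 : 9 ∣ S.N0) (hq : ¬ 3 ∣ S.q) (φ : S.F0 →ₐ[K] F) (R : Subring F)
    (hR : IsPt S.B R) (h : φ (jj K S.N0) ∈ R ∨ (φ (jj K S.N0))⁻¹ ∈ rad R) :
    φ ((baseData9 S.N0 S.q h9 hq).xK K) ∈ R ∨ (φ ((baseData9 S.N0 S.q h9 hq).xK K))⁻¹ ∈ R := by
  rw [jj_eq] at h
  rw [baseData9_xK]
  have h3 : RUnit R (3 : F) := by
    have := runit_natCast' S hR (n := 3) ((Nat.Prime.coprime_iff_not_dvd Nat.prime_three).mpr hq)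
    simpa using this
  have hrel := congrArg φ (S.j0_mul_h9 h9)
  simp only [map_mul, map_add, map_pow, map_one, map_ofNat] at hrel
  have key := hR.locNor.fin_iff_level9 h3 hrel
  rw [← fin_iff]
  exact key.mp h

end Fin

/-! ### The generic instances -/

variable {S} {Gz Tz : PowerSeries ℤ} {ε : ℤ} {x : S.F1} {t : S.F0}

theorem b0_of (D : BaseData S.N0 S.q) (H : Haupt' S Tz t) (F : Type*) [Field F] [Algebra K F]
    (hfin : ∀ (φ : S.F0 →ₐ[K] F) (R : Subring F), IsPt S.B R →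
      (φ (jj K S.N0) ∈ R ∨ (φ (jj K S.N0))⁻¹ ∈ rad R) →
      (φ (D.xK K) ∈ R ∨ (φ (D.xK K))⁻¹ ∈ R)) :
    Pts.B0 S.B S.q S.V0 (jj K S.N0) (D.xK K) t F where
  unif := S.isUnif_V0
  chart₁ := S.chart₁ D
  chart₂ := S.chart₂ D
  fin := hfin
  j_ne := by rw [jj_eq]; exact S.j0_ne_zero
  j_unit := by rw [jj_eq]; exact BaseS.j_unit S
  t_unit := PtsT.t_unit H
  t_int := PtsT.t_int H
  t_int' := PtsT.t_int' H

theorem b1_of (D : UnitData S Gz ε x) (H : Haupt' S Tz t) :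
    ∃ cf : ℕ → ℕ → K,
      Pts.B1 S.B S.q S.al0 S.be0 ![S.V1oo, S.V10] (jj K S.N0) t x S.w1 cf := by
  obtain ⟨cf, h1, h2, h3⟩ := S.exists_cusp_rel
  obtain ⟨r1, r2⟩ := h3 (jj K S.N0) (coe_JK_one_eq K S.N0 _)
  exact ⟨cf,
    { x_ne := YBasic_x_ne_zero D
      x_int := by rw [al0_jj]; exact PtsT.intOver_mem_chart _ D.int
      x_int' := by rw [al0_jj]; exact PtsT.intOver_mem_chart _ D.int'
      w_al := S.w1_al0
      w_be := S.w1_be0
      comap_w := S.V10_comap_w1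
      frob := Gen.frob_setup S
      dense := Gen.dense_setup S
      kron_j := by
        rw [jj_eq]
        exact PtsT.div_le_one_of_lt S.isUnif_V1oo (BaseS.typeF S)
      kron_t := PtsT.kron_t H
      coeff_mem := h1
      coeff_unit := h2
      rel := r1
      rel' := r2 }⟩

theorem ram_j (S : Setup K K') :
    S.V11.valuation (Pts.z2 S.al0 S.be0 S.al1 S.be1 (jj K S.N0)) ^ (S.q - 1) =
      S.V11.valuation ((S.q : ℕ) : S.F2) := by
  refine ram_j_of_sub S.al0 S.be0 S.al1 S.be1 S.V11 (jj K S.N0) S.q ?_ ?_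
  · have h1 : S.V1oo.valuation (S.al0 (jj K S.N0)) = 1 := by
      refine (valuation_comap_eq_one S.V1oo S.al0.toRingHom _).1 ?_
      rw [S.V1oo_comap_al0, jj_eq]
      exact BaseS.j_unit S
    refine (valuation_comap_eq_one S.V11 S.al1.toRingHom _).1 ?_
    rw [S.V11_comap_al1]
    exact h1
  · rw [jj_eq, ← BaseS.tau0_eq]
    exact S.ram_V11

theorem b2_of (D : UnitData S Gz ε x) (t : S.F0) (κ e₃ : S.F2)
    (hκ : S.V11.valuation κ = 1)
    (hc : S.V11.valuation (zf S t ^ (S.q - 1) / ((S.q : ℕ) : S.F2) * κ - e₃) < 1)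
    (hkap : κ = Yf S x 0 * Yf S x 2 ∨ κ = 1) (he : e₃ = 1 ∨ e₃ = -1) :
    Pts.B2 S.q S.al0 S.be0 S.al1 S.be1 S.VV (jj K S.N0) t x κ
      ![1, ((ε : ℤ) : S.F2), ((ε : ℤ) : S.F2) ^ (S.q - 1), e₃] where
  nc := by
    have hv : S.V11.valuation e₃ = 1 := by
      rcases he with rfl | rfl
      · exact map_one _
      · rw [Valuation.map_neg, map_one]
    exact nonCuspData_of D (zf S t) κ e₃ (isUnif_of_cong hκ hv hc) hc
  kap := hkap
  e_pm := by
    have hε : ((ε : ℤ) : S.F2) = 1 ∨ ((ε : ℤ) : S.F2) = -1 := by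
      rcases D.eps with rfl | rfl
      · left; simp
      · right; simp
    intro i
    fin_cases i
    · exact Or.inl rfl
    · exact hε
    · show ((ε : ℤ) : S.F2) ^ (S.q - 1) = 1 ∨ ((ε : ℤ) : S.F2) ^ (S.q - 1) = -1
      rcases hε with h | h
      · left; rw [h, one_pow]
      · rw [h]; exact neg_one_pow_eq_or _ _
    · exact he
  ram_j := ram_j S

/-! ### The final statements -/

/-- the statement: the point data of the levels `0`, `1`, `2`. -/
def PtsData (S : Setup K K') : Prop :=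
  ∃ (x₀ t : S.F0) (x₁ : S.F1) (κ : S.F2) (e : Fin 4 → S.F2) (cf : ℕ → ℕ → K),
    (∀ (F : Type) [Field F] [Algebra K F], Pts.B0 S.B S.q S.V0 (jj K S.N0) x₀ t F) ∧
    Pts.B1 S.B S.q S.al0 S.be0 ![S.V1oo, S.V10] (jj K S.N0) t x₁ S.w1 cf ∧
    Pts.B2 S.q S.al0 S.be0 S.al1 S.be1 S.VV (jj K S.N0) t x₁ κ e

/-- **`q = 2`**: `x₀ = h₉`, `t = 1/h₃`, `x₁ = G₉(z)/G₉(2z)`, `κ = 1`. -/
theorem exists_pts_two (S : Setup K K') (h9 : 9 ∣ S.N0) (hq2 : S.q = 2) : PtsData S := by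
  have hq3 : ¬ 3 ∣ S.q := by rw [hq2]; norm_num
  obtain ⟨t, H⟩ := exists_haupt3 S (Dvd.dvd.trans (by norm_num) h9) (by rw [hq2]; norm_num)
  obtain ⟨ε, x, D⟩ := exists_unitData9 S h9 hq2
  obtain ⟨cf, h1⟩ := b1_of D H
  exact ⟨_, t, x, 1, _, cf,
    fun F _ _ => b0_of (baseData9 S.N0 S.q h9 hq3) H F (fin9 S h9 hq3), h1,
    b2_of D t 1 1 (map_one _) (zf_cong_two' hq2 H X_mul_derivative_T3z) (Or.inr rfl) (Or.inl rfl)⟩

/-- **`q` odd**: `x₀ = h₄`, `t = t₄`, `x₁ = G₄(z)/G₄(qz)`, `κ = Y 0 * Y 2`. -/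
theorem exists_pts_odd (S : Setup K K') (h4 : 4 ∣ S.N0) (hq2 : S.q ≠ 2) : PtsData S := by
  have hq : ¬ 2 ∣ S.q := fun h => hq2 ((Nat.prime_dvd_prime_iff_eq Nat.prime_two S.hq).mp h).symm
  obtain ⟨ε, x, D⟩ := exists_unitData4 S h4 hq2
  obtain ⟨t, H⟩ := exists_hauptData S h4 hq2 der_T4z
  obtain ⟨cf, h1⟩ := b1_of D (haupt'_of_hauptData H)
  have hκ : S.V11.valuation (Yf S x 0 * Yf S x 2) = 1 := by
    rw [map_mul, (Yf_V11 D).2.1, (Yf_V11 D).2.2.1, one_mul]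
  have he : (-((ε : ℤ) : S.F2)) = 1 ∨ (-((ε : ℤ) : S.F2)) = -1 := by
    rcases D.eps with rfl | rfl
    · right; simp
    · left; simp
  exact ⟨_, t, x, _, _, cf,
    fun F _ _ => b0_of (baseData4 S.N0 S.q h4 hq) (haupt'_of_hauptData H) F (fin4 S h4 hq), h1,
    b2_of D t _ _ hκ (zf_cong hq2 D H) (Or.inl rfl) he⟩

/-- **The point data of the levels `0`, `1`, `2` for `S36.Mod.Setup`.** -/
theorem exists_pts (S : Setup K K') (haux : S36.Inst.Aux S) : PtsData S := by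
  by_cases hq2 : S.q = 2
  · exact exists_pts_two S (by have := haux; rwa [S36.Inst.Aux, if_pos hq2] at this) hq2
  · exact exists_pts_odd S (by have := haux; rwa [S36.Inst.Aux, if_neg hq2] at this) hq2

end Fermat.Agent.S45.Mod.PtsTwo

end
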