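/-
S45, project CARAYOL-K, block MOD (owner helper18): THE ADAPTER between the two abstract towers.

* `T.toTab G : Tab.Tower`  (forget the `K`-structure of `T : Mod.Tower K`), with the dictionary
  `toTab_dA`, `toTab_dd`, `toTab_dB`, `toTab_xs`;
* `exists_hyp`             : `Tab.Hyp` from `Mod.Tower.Gen` and `Mod.Tower.Base`;
* `T.sh`                   : the tower shifted by one level;
* `T.st n i : F 1 →ₐ[K] F (n + 1)`, `T.win n i : F 2 →ₐ[K] F (n + 2)`  (`f(z) ↦ f(q^i z)`, `i ≤ n`):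
  the STEPS and the WINDOWS of `Pts.Geo`, as `K`-algebra homomorphisms, with `st_al`, `st_be`,
  `win_al`, `win_be` and the dictionary `toTab_w1`, `toTab_w2` with `Tab2.w1`, `Tab2.w2`.
-/
import Fermat.Agent.S45.Mod.Tower
import Fermat.Agent.S45.Tab2.Win

set_option autoImplicit false

noncomputable section

namespace Fermat.Agent.S45.Mod

open Fermat.Agent.S18 Fermat.Agent.S36.BP Fermat.Agent.S36.Norm

namespace Tower

variable {K : Type} [Field K] (T : Tower K) {q : ℕ}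

theorem Gen.charZeroF {T : Tower K} (G : T.Gen q) (k : ℕ) : CharZero (T.F k) :=
  haveI := G.charZero
  charZero_of_injective_algebraMap (algebraMap K (T.F k)).injective

/-- forget the `K`-structure -/
abbrev toTab (G : T.Gen q) : Tab.Tower where
  F := T.F
  fld := T.fld
  chr := G.charZeroF
  al k := (T.al k).toRingHom
  be k := (T.be k).toRingHom
  comm k y := (G.comm k y).symm

variable {T}

theorem toTab_al (G : T.Gen q) (k : ℕ) (y : T.F k) : (T.toTab G).al k y = T.al k y := rfl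

theorem toTab_be (G : T.Gen q) (k : ℕ) (y : T.F k) : (T.toTab G).be k y = T.be k y := rfl

theorem toTab_dA (G : T.Gen q) : ∀ k, (T.toTab G).dA k = (T.da k).toRingHom
  | 0 => rfl
  | k + 1 => by
    show ((T.toTab G).al k).comp ((T.toTab G).dA k) = _
    rw [toTab_dA G k]
    rfl

theorem toTab_dd (G : T.Gen q) : ∀ k i, Tab2.dd (T.toTab G) k i = (T.dd k i).toRingHom
  | 0, _ => rfl
  | k + 1, i => by
    rw [Tab2.dd, dd]
    split_ifs with h
    · rw [toTab_dd G k i]; rfl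
    · rw [toTab_dd G k k]; rfl

theorem toTab_xs (G : T.Gen q) (k i : ℕ) : (T.toTab G).xs T.j k i = T.X k i := by
  rw [Tab2.xs_eq, toTab_dd]
  rfl

/-! ### `dd` on `Mod.Tower` -/

theorem al_dd {k i : ℕ} (hi : i ≤ k) (y : T.F 0) : T.al k (T.dd k i y) = T.dd (k + 1) i y :=
  (T.dd_succ_of_le hi y).symm

theorem be_dd_self (k : ℕ) (y : T.F 0) : T.be k (T.dd k k y) = T.dd (k + 1) (k + 1) y :=
  (T.dd_succ_self k y).symm

theorem Gen.be_dd (G : T.Gen q) {k i : ℕ} (hi : i ≤ k) (y : T.F 0) :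
    T.be k (T.dd k i y) = T.dd (k + 1) (i + 1) y := by
  have h := Tab2.be_dd (T.toTab G) hi y
  rw [toTab_dd, toTab_dd] at h
  exact h

theorem da_eq_dd : ∀ (k : ℕ) (y : T.F 0), T.da k y = T.dd k 0 y
  | 0, _ => rfl
  | k + 1, y => by rw [← al_dd (Nat.zero_le k), ← da_eq_dd k y]; rfl

theorem db_eq_dd : ∀ (k : ℕ) (y : T.F 0), T.db k y = T.dd k k y
  | 0, _ => rfl
  | k + 1, y => by rw [← be_dd_self k, ← db_eq_dd k y]; rfl

theorem toTab_dB (G : T.Gen q) (k : ℕ) : Tab2.dB (T.toTab G) k = (T.db k).toRingHom := by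
  rw [Tab2.dB, toTab_dd]
  exact RingHom.ext fun y => (db_eq_dd k y).symm

theorem Gen.be_X (G : T.Gen q) {k i : ℕ} (hi : i ≤ k) : T.be k (T.X k i) = T.X (k + 1) (i + 1) :=
  G.be_dd hi T.j

theorem al_X {k i : ℕ} (hi : i ≤ k) : T.al k (T.X k i) = T.X (k + 1) i := al_dd hi T.j

/-- Kronecker's relation between `j(q^i z)` and `j(q^(i+1) z)` at every level. -/
theorem Gen.kron_X (G : T.Gen q) : ∃ ψ : ℕ → ℕ → ℤ, (∀ a b, ψ a b = ψ b a) ∧
    ∀ k i, i < k → kronPoly q ψ (T.X k i) (T.X k (i + 1)) = 0 := by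
  obtain ⟨ψ, hs, h⟩ := G.kron
  refine ⟨ψ, hs, ?_⟩
  intro k
  induction k with
  | zero => intro i hi; omega
  | succ k ih =>
    intro i hi
    rcases Nat.lt_or_ge i k with h1 | h1
    · rw [← al_X (by omega : i ≤ k), ← al_X (by omega : i + 1 ≤ k),
        ← AlgHom.coe_toRingHom, ← map_kronPoly, ih i h1, map_zero]
    · obtain rfl : i = k := by omega
      rcases Nat.eq_zero_or_pos i with rfl | hpos
      · exact h
      · obtain ⟨m, rfl⟩ : ∃ m, i = m + 1 := ⟨i - 1, by omega⟩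
        rw [← G.be_X (by omega : m ≤ m + 1), ← G.be_X (le_refl (m + 1)),
          ← AlgHom.coe_toRingHom, ← map_kronPoly, ih m (by omega), map_zero]

/-! ### `Tab.Hyp` -/

theorem exists_hyp (G : T.Gen q) {A₀ : ValuationSubring K} {V0 : ValuationSubring (T.F 0)}
    {V1 : Fin 2 → ValuationSubring (T.F 1)} {V2 : Fin 3 → ValuationSubring (T.F 2)}
    (B : T.Base A₀ q V0 V1 V2) : ∃ ψ : ℕ → ℕ → ℤ, Tab.Hyp (T.toTab G) q V0 T.j ψ := by
  obtain ⟨ψ, hs, h⟩ := G.kron
  refine ⟨ψ, ?_⟩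
  exact
    { prime := B.base.prime
      degA := fun k hk => G.dg_al k hk
      degB := fun k hk => G.dg_be k hk
      kronAB := h
      kronBA := (kronPoly_symm q ψ hs _ _).trans h
      vert1 := fun W => by
        constructor
        · intro hW
          obtain ⟨c, rfl⟩ := B.complete_al1 W hW
          exact B.comap_be1 c
        · intro hW
          obtain ⟨c, rfl⟩ := B.complete_be1 W hW
          exact B.comap_al1 c }

/-! ### Steps and windows -/

variable (T)

/-- the tower shifted by one level -/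
abbrev sh : Tower K where
  F k := T.F (k + 1)
  al k := T.al (k + 1)
  be k := T.be (k + 1)
  j := T.al 0 T.j
  x₀ := T.al 0 T.x₀

/-- the STEP `i`: `f(z) ↦ f(q^i z)` from level `1` to level `n + 1` (`i ≤ n`). -/
def st (n i : ℕ) : T.F 1 →ₐ[K] T.F (n + 1) := T.sh.dd n i

/-- the WINDOW `i`: `f(z) ↦ f(q^i z)` from level `2` to level `n + 2` (`i ≤ n`). -/
def win (n i : ℕ) : T.F 2 →ₐ[K] T.F (n + 2) := T.sh.sh.dd n i

variable {T}

/-- only `comm` and `charZero` are used by `toTab`: a weak form of `Gen` for the shifted towers -/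
theorem dd_toRingHom_sh (G : T.Gen q) : ∀ n i,
    Tab2.dd (Tab2.sh (T.toTab G)) n i = (T.sh.dd n i).toRingHom
  | 0, _ => rfl
  | n + 1, i => by
    rw [Tab2.dd, dd]
    split_ifs with h
    · rw [dd_toRingHom_sh G n i]; rfl
    · rw [dd_toRingHom_sh G n n]; rfl

theorem dd_toRingHom_sh_sh (G : T.Gen q) : ∀ n i,
    Tab2.dd (Tab2.sh (Tab2.sh (T.toTab G))) n i = (T.sh.sh.dd n i).toRingHom
  | 0, _ => rfl
  | n + 1, i => by
    rw [Tab2.dd, dd]
    split_ifs with h
    · rw [dd_toRingHom_sh_sh G n i]; rfl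
    · rw [dd_toRingHom_sh_sh G n n]; rfl

theorem toTab_w1 (G : T.Gen q) (n i : ℕ) : Tab2.w1 (T.toTab G) n i = (T.st n i).toRingHom :=
  dd_toRingHom_sh G n i

theorem toTab_w2 (G : T.Gen q) (n i : ℕ) : Tab2.w2 (T.toTab G) n i = (T.win n i).toRingHom :=
  dd_toRingHom_sh_sh G n i

theorem Gen.st_al (G : T.Gen q) {n i : ℕ} (hi : i ≤ n) (y : T.F 0) :
    T.st n i (T.al 0 y) = T.dd (n + 1) i y := by
  have h := Tab2.w1_al (T.toTab G) hi y
  rw [toTab_w1, toTab_dd] at h
  exact h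

theorem Gen.st_be (G : T.Gen q) {n i : ℕ} (hi : i ≤ n) (y : T.F 0) :
    T.st n i (T.be 0 y) = T.dd (n + 1) (i + 1) y := by
  have h := Tab2.w1_be (T.toTab G) hi y
  rw [toTab_w1, toTab_dd] at h
  exact h

theorem Gen.win_al (G : T.Gen q) {n i : ℕ} (hi : i ≤ n) (y : T.F 1) :
    T.win n i (T.al 1 y) = T.st (n + 1) i y := by
  have h := Tab2.w2_al (T.toTab G) hi y
  rw [toTab_w2, toTab_w1] at h
  exact h

theorem Gen.win_be (G : T.Gen q) {n i : ℕ} (hi : i ≤ n) (y : T.F 1) :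
    T.win n i (T.be 1 y) = T.st (n + 1) (i + 1) y := by
  have h := Tab2.w2_be (T.toTab G) hi y
  rw [toTab_w2, toTab_w1] at h
  exact h

end Tower

end Fermat.Agent.S45.Mod

end
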