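/-
S45, project CARAYOL-K, block MOD, item M4 (helper76): THE STRUCTURE `Pts.B0` FOR THE INSTANCE `S : S36.Mod.Setup K K'`.

* `fin4`, `fin9`  : "finite or infinite" passes from `j` to the Hauptmodul `h₄` (`q` odd) resp. `h₉` (`q = 2`), for an
                    ARBITRARY target field `F` (`S36.Mod.Setup.baseRel4/9` are the case `F = S.F2`);
* `b0_of`         : `Pts.B0` from a base datum `D` with the property `fin`, and a modular unit `t` (`Gen.Two.Haupt'`);
* `exists_b0`     : the final form: `∃ D, ∀ F, Pts.B0 S.B S.q S.V0 (jj K S.N0) (D.xK K) t F`.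
-/
import Fermat.Agent.S45.Mod.PtsT
import Fermat.Agent.S45.Mod.BaseS
import Fermat.Agent.S36.Mod.Base.Main
import Fermat.Agent.BAD.LevelQ.Mod.SetupL0

set_option autoImplicit false
set_option linter.unusedSectionVars false

noncomputable section

namespace Fermat.Agent.S45.Mod.B0Inst

open ModularCurve Fermat.Agent.S24 Fermat.Agent.S18 Fermat.Agent.S36.Mod Fermat.Agent.S36.BP
  Fermat.Agent.BAD.Model Fermat.Agent.BAD.Model.EtaInst Fermat.Agent.Lib.Hauptmodul
  Fermat.Agent.S36.Mod.Base Fermat.Agent.S45.Gen.Two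

variable {K K' : Type} [Field K] [Field K'] [Algebra ℚ K] [Algebra ℚ K'] [Algebra K Kbar]
  [Algebra K' Kbar] (S : Setup K K')

section Target

variable {F : Type*} [Field F] [Algebra K F]

theorem runit_natCast {R : Subring F} (hR : IsPt S.B R) {n : ℕ} (h : n.Coprime S.q) :
    RUnit R ((n : ℕ) : F) := by
  have := hR.runit_const (S.valuation_natCast_eq_one h)
  rwa [map_natCast] at this

/-- `S36.Mod.Setup.baseRel4` for an arbitrary target field. -/
theorem fin4 (h4 : 4 ∣ S.N0) (hq : ¬ 2 ∣ S.q) (φ : S.F0 →ₐ[K] F) (R : Subring F)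
    (hR : IsPt S.B R) (h : φ S.j0 ∈ R ∨ (φ S.j0)⁻¹ ∈ rad R) :
    φ ((baseData4 S.N0 S.q h4 hq).xK K) ∈ R ∨ (φ ((baseData4 S.N0 S.q h4 hq).xK K))⁻¹ ∈ R := by
  rw [baseData4_xK]
  have h2 : RUnit R (2 : F) := by
    have := runit_natCast S hR (n := 2) ((Nat.Prime.coprime_iff_not_dvd Nat.prime_two).mpr hq)
    simpa using this
  have hrel := congrArg φ (S.j0_mul_h4 h4)
  simp only [map_mul, map_add, map_pow, map_one, map_ofNat] at hrel
  have key := hR.locNor.fin_iff_level4 h2 hrel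
  rw [← fin_iff]
  exact key.mp h

/-- `S36.Mod.Setup.baseRel9` for an arbitrary target field. -/
theorem fin9 (h9 : 9 ∣ S.N0) (hq : ¬ 3 ∣ S.q) (φ : S.F0 →ₐ[K] F) (R : Subring F)
    (hR : IsPt S.B R) (h : φ S.j0 ∈ R ∨ (φ S.j0)⁻¹ ∈ rad R) :
    φ ((baseData9 S.N0 S.q h9 hq).xK K) ∈ R ∨ (φ ((baseData9 S.N0 S.q h9 hq).xK K))⁻¹ ∈ R := by
  rw [baseData9_xK]
  have h3 : RUnit R (3 : F) := by
    have := runit_natCast S hR (n := 3) ((Nat.Prime.coprime_iff_not_dvd Nat.prime_three).mpr hq)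
    simpa using this
  have hrel := congrArg φ (S.j0_mul_h9 h9)
  simp only [map_mul, map_add, map_pow, map_one, map_ofNat] at hrel
  have key := hR.locNor.fin_iff_level9 h3 hrel
  rw [← fin_iff]
  exact key.mp h

end Target

theorem j0_eq_jj : S.j0 = jj K S.N0 := S.valCusp_j0_eq

variable {S} {Tz : PowerSeries ℤ} {t : S.F0}

/-- `Pts.B0` from a base datum with the property `fin`. -/
theorem b0_of (H : Haupt' S Tz t) (D : BaseData S.N0 S.q) (F : Type*) [Field F] [Algebra K F]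
    (hfin : ∀ (φ : S.F0 →ₐ[K] F) (R : Subring F), IsPt S.B R →
      (φ S.j0 ∈ R ∨ (φ S.j0)⁻¹ ∈ rad R) → (φ (D.xK K) ∈ R ∨ (φ (D.xK K))⁻¹ ∈ R)) :
    Pts.B0 S.B S.q S.V0 (jj K S.N0) (D.xK K) t F where
  unif := S.unifw
  chart₁ := S.chart₁ D
  chart₂ := S.chart₂ D
  fin := by
    rw [← j0_eq_jj S]
    exact hfin
  j_ne := by
    rw [← j0_eq_jj S]
    exact S.j0_ne_zero
  j_unit := by
    rw [← j0_eq_jj S]
    exact BaseS.j_unit S
  t_unit := PtsT.t_unit H
  t_int := PtsT.t_int H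
  t_int' := PtsT.t_int' H

/-- **`Pts.B0` for the instance**, every target field. -/
theorem exists_b0 (haux : if S.q = 2 then 9 ∣ S.N0 else 4 ∣ S.N0) (H : Haupt' S Tz t) :
    ∃ D : BaseData S.N0 S.q, ∀ (F : Type) [Field F] [Algebra K F],
      Pts.B0 S.B S.q S.V0 (jj K S.N0) (D.xK K) t F := by
  split_ifs at haux with hq
  · have h3 : ¬ 3 ∣ S.q := by rw [hq]; norm_num
    exact ⟨baseData9 S.N0 S.q haux h3, fun F _ _ => b0_of H _ F (fin9 S haux h3)⟩
  · have h2 : ¬ 2 ∣ S.q := fun h =>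
      hq ((Nat.prime_dvd_prime_iff_eq Nat.prime_two S.hq).mp h).symm
    exact ⟨baseData4 S.N0 S.q haux h2, fun F _ _ => b0_of H _ F (fin4 S haux h2)⟩

end Fermat.Agent.S45.Mod.B0Inst

end
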