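/-
S45, project CARAYOL-K, block MOD, node M4, helper16.

Fields of `Pts.B1` (`S45/Pts/Defs.lean`) for `S : S36.Mod.Setup K K'`, with
`al0 = S.al0`, `be0 = S.be0`, `V1 = ![S.V1oo, S.V10]`, `w1 = S.w1`:
* `b1_w_al`, `b1_w_be`, `b1_comap_w`, `b1_dense`;
* `kron_of_int` : `V1oo ((be0 g - al0 g ^ q) / q) ≤ 1` for every `g : S.F0` whose expansion has INTEGER coefficients
                  (fields `kron_j`, `kron_t`);  `kron_j` : the case `g = j`.
-/
import Fermat.Agent.S45.Mod.CuspB
import Fermat.Agent.S36.Mod.Val.Level1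
import Fermat.Agent.S36.Mod.HalfInst.Expand

set_option autoImplicit false
set_option linter.unusedSectionVars false

noncomputable section

namespace Fermat.Agent.S45.Mod

open ModularCurve Fermat.Agent.S24 Fermat.Agent.S24.B Fermat.Agent.S18 Fermat.Agent.S18.Vert
  Fermat.Agent.S36.BP Fermat.Agent.S36.Mod Fermat.Agent.S36.Mod.ExpandAux

variable {K K' : Type} [Field K] [Field K'] [Algebra ℚ K] [Algebra ℚ K'] [Algebra K Kbar]
  [Algebra K' Kbar] (S : Setup K K')

/-- the two vertical valuations of level `N₀ q`: `V1 0 = F`, `V1 1 = V`. -/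
def V1S : Fin 2 → ValuationSubring S.F1 := ![S.V1oo, S.V10]

theorem b1_w_al (y : S.F0) : S.w1 (S.al0 y) = S.be0 y := S.w1_al0 y

theorem b1_w_be (y : S.F0) : S.w1 (S.be0 y) = S.al0 y := S.w1_be0 y

theorem b1_comap_w : (V1S S 1).comap (S.w1 : S.F1 →+* S.F1) = V1S S 0 := S.V10_comap_w1

theorem b1_dense (y : S.F1) (hy : (V1S S 0).valuation y ≤ 1) :
    ∃ h : S.F0, (V1S S 0).valuation (S.al0 h - y) < 1 :=
  S.dense1oo y ((S.V1oo.valuation_le_one_iff y).1 hy)

theorem coe_al0 (g : S.F0) : ((S.al0 g : S.F1) : LaurentSeries K) = (g : LaurentSeries K) := by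
  rw [Setup.al0, coe_heckeAlphaBar]

theorem coe_be0 (g : S.F0) :
    ((S.be0 g : S.F1) : LaurentSeries K) = qExpand K S.q (g : LaurentSeries K) := by
  rw [Setup.be0, coe_heckeBetaBar]

theorem coeffMap_C_natCast (q : ℕ) :
    coeffMap (Int.castRingHom K) (HahnSeries.C (q : ℤ)) = (q : LaurentSeries K) := by
  rw [HahnSeries.C_apply, coeffMap_single, ← HahnSeries.C_apply]
  simp

theorem coe_kron (g : S.F0) (P U : LaurentSeries ℤ)
    (hg : ((g : S.F0) : LaurentSeries K) = coeffMap (Int.castRingHom K) P)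
    (hU : qExpand ℤ S.q P - P ^ S.q = HahnSeries.C (S.q : ℤ) * U) :
    (((S.be0 g - S.al0 g ^ S.q) / (S.q : S.F1) : S.F1) : LaurentSeries K) =
      coeffMap (Int.castRingHom K) U := by
  have hqL : ((S.q : ℕ) : LaurentSeries K) ≠ 0 := by
    have : CharZero K := algebraRat.charZero K
    intro h
    have h1 : (algebraMap K (LaurentSeries K)) ((S.q : ℕ) : K) = 0 := by rw [map_natCast]; exact h
    exact (Nat.cast_ne_zero (R := K)).2 S.hq.ne_zero ((map_eq_zero _).1 h1)
  rw [IntermediateField.coe_div, AddSubgroupClass.coe_sub, IntermediateField.coe_pow,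
    SubringClass.coe_natCast, div_eq_iff hqL, coe_al0, coe_be0, hg, ← coeffMap_qExpand,
    ← map_pow, ← map_sub, hU, map_mul, coeffMap_C_natCast, mul_comm]

/-- **Kronecker's congruence** `g(q z) ≡ g(z)^q` modulo `q` for functions with integral expansion. -/
theorem kron_of_int (g : S.F0) (P : LaurentSeries ℤ)
    (hg : ((g : S.F0) : LaurentSeries K) = coeffMap (Int.castRingHom K) P) :
    S.V1oo.valuation ((S.be0 g - S.al0 g ^ S.q) / (S.q : S.F1)) ≤ 1 := by
  obtain ⟨U, hU⟩ := exists_qExpand_sub_pow S.q S.hq P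
  rw [S.V1oo.valuation_le_one_iff]
  refine IntEmb.mem_val_of_eq_inc S.e1oo (P := coeffMap (Int.castRingHom S.B) U) ?_
  rw [inc_coeffMap_int, Setup.e1oo_apply]
  exact coe_kron S g P U hg hU

/-- field `kron_j`, for any `j` with the expansion `jqModC K` (see `coe_jK_eq`, `coe_JK_one_eq`). -/
theorem kron_j (j : S.F0) (hj : ((j : S.F0) : LaurentSeries K) = jqModC K) :
    S.V1oo.valuation ((S.be0 j - S.al0 j ^ S.q) / (S.q : S.F1)) ≤ 1 :=
  kron_of_int S j (jqModC ℤ) (by rw [hj, coeffMap_jqModC])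

end Fermat.Agent.S45.Mod

end
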