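/-
S45, project CARAYOL-K, block MOD, leaf BASEQ (helper39).  THE LEVELS `0` AND `1`, CONCRETELY, on the objects of
`S : S36.Mod.Setup K K'` (every prime `q`, every level `N0` prime to `q`):

  `V0 := S.V0`,  `V1 := ![S.V1oo, S.V10]`,  `al 0 = S.al0`,  `be 0 = S.be0`,  `j = JK K S.N0 1 _`.

NOTE.  The level-`0/1` fields of `Tower.Base` were landed in parallel in `Mod/BaseS.lean`, `Mod/BaseInst.lean` (helper156) and
`frob_up` (without Frobenius lift) in `Gen/FrobInst.lean` (helper88): USE THOSE.  What is only here: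
* `comap_gam`, `gam_mem_iff` : the coefficientwise action of an endomorphism of `K` preserving `B` preserves `V0`;
* `kron`        : `h(qz) ≡ (γ h)(z)^q` on `V1oo` in Setup language;
* `frob_down`   : `∀ h ∈ V0, ∃ f ∈ V0`, `h(z) ≡ f(qz)^q` on `V10` and `h(qz) ≡ f(z)^q` on `V1oo`;
* `frob_up`     : `∀ f ∈ V0, ∃ h ∈ V0`, the same two congruences (both components at once);
* `bijective_of_ringHom` : every endomorphism of `K ⊆ ℚ̄` is bijective;  `val_V10_lt_iff`, `comap_w1_zero`, `comap_w1_one`.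
-/
import Fermat.Agent.S45.Mod.Inst
import Fermat.Agent.S36.Mod.Complete1
import Fermat.Agent.S36.Mod.Val.Level1
import Fermat.Agent.S36.Mod.Table.Comap
import Fermat.Agent.S36.Mod.HalfInst.Unif
import Fermat.Agent.S36.Mod.HalfInst.Insep
import Fermat.Agent.BAD.LevelQ.Mod.Kron

set_option autoImplicit false
set_option linter.unusedSectionVars false

noncomputable section

namespace Fermat.Agent.S45.Mod.BaseQ

open ModularCurve Fermat.Agent.S24 Fermat.Agent.S18 Fermat.Agent.S18.Vert Fermat.Agent.S18.Descent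
  Fermat.Agent.S36.Norm Fermat.Agent.S36.Mod Fermat.Agent.BAD.LevelQ

variable {K K' : Type} [Field K] [Field K'] [Algebra ℚ K] [Algebra ℚ K'] [Algebra K Kbar]
  [Algebra K' Kbar] (S : Setup K K')

/-- `j(z)` at level `N0`. -/
abbrev jj : S.F0 := JK K S.N0 1 (one_dvd _)

theorem jj_eq_jK : jj S = jK K S.N0 :=
  Subtype.ext (by show Js K 1 = coeffEmb K jq; rw [Js, qExpand_one_apply])

theorem e0_jj : S.e0.toHom (jj S) = Js K 1 := rfl

theorem e1oo_al0_jj : S.e1oo.toHom (S.al0 (jj S)) = Js K 1 := by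
  rw [Setup.e1oo_apply, Setup.coe_al0]; rfl

theorem e1oo_be0_jj : S.e1oo.toHom (S.be0 (jj S)) = Js K (S.q * 1) := by
  rw [Setup.e1oo_apply, Setup.coe_be0]
  exact qExpand_Js S.q 1

theorem e10_al0_jj : S.e10.toHom (S.al0 (jj S)) = Js K (S.q * 1) := by
  rw [Setup.e10_apply, Setup.w1_al0, ← Setup.e1oo_apply, e1oo_be0_jj]

theorem e10_be0_jj : S.e10.toHom (S.be0 (jj S)) = Js K 1 := by
  rw [Setup.e10_apply, Setup.w1_be0, ← Setup.e1oo_apply, e1oo_al0_jj]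

/-! ### level `0` -/

theorem unif0 : IsUnif S.V0 ((S.q : ℕ) : S.F0) := S.isUnif_V0

theorem typeF : S.V1oo.valuation (S.be0 (jj S) - S.al0 (jj S) ^ S.q) < 1 :=
  S.insep_cong S.e1oo (e1oo_be0_jj S) (e1oo_al0_jj S)

theorem typeV : S.V10.valuation (S.al0 (jj S) - S.be0 (jj S) ^ S.q) < 1 :=
  S.insep_cong S.e10 (e10_al0_jj S) (e10_be0_jj S)

theorem algebraMap_mem_V0 {a : K} (ha : a ∈ S.B) : algebraMap K S.F0 a ∈ S.V0 :=
  S.e0.mem_val_of_eq_inc (P := HahnSeries.C (⟨a, ha⟩ : S.B)) (by rw [inc_C]; rfl)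

theorem const0 : S.V0.comap (algebraMap K S.F0) = S.B := by
  refine ValuationSubring.ext _ _ fun a => ⟨fun h => ?_, fun h => algebraMap_mem_V0 S h⟩
  change algebraMap K S.F0 a ∈ S.V0 at h
  by_contra ha
  have hb : a⁻¹ ∈ S.B := (S.B.mem_or_inv_mem a).resolve_left ha
  have ha0 : a ≠ 0 := fun h0 => ha (h0 ▸ S.B.zero_mem)
  have hnu : ¬ IsUnit (⟨a⁻¹, hb⟩ : S.B) := by
    intro hu
    obtain ⟨u, hu⟩ := hu
    apply ha
    have h1 : ((u⁻¹ : S.Bˣ) : S.B) * ⟨a⁻¹, hb⟩ = 1 := by rw [← hu]; exact u.inv_mul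
    have h2 : (((u⁻¹ : S.Bˣ) : S.B) : K) * a⁻¹ = 1 := congrArg Subtype.val h1
    have h3 : (((u⁻¹ : S.Bˣ) : S.B) : K) = a := by
      field_simp at h2
      exact h2
    rw [← h3]
    exact ((u⁻¹ : S.Bˣ) : S.B).2
  have e : S.e0.toHom (algebraMap K S.F0 a⁻¹) = inc S.B (HahnSeries.C (⟨a⁻¹, hb⟩ : S.B)) := by
    rw [inc_C]; rfl
  have h0 : S.e0.res ⟨_, S.e0.mem_val_of_eq_inc e⟩ = 0 := by
    rw [S.e0.res_of_eq_inc e, red_C, (IsLocalRing.residue_eq_zero_iff _).2 hnu, map_zero]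
  have h1 := (S.e0.res_eq_zero_iff _).1 h0
  rw [IntEmb.mem_nonunits_iff_aux] at h1
  rcases h1 with h1 | h1
  · exact inv_ne_zero ha0 ((map_eq_zero _).1 h1)
  · apply h1
    show (algebraMap K S.F0 a⁻¹)⁻¹ ∈ S.V0
    rw [map_inv₀, inv_inv]
    exact h

theorem jj_mem : jj S ∈ S.V0 := by
  obtain ⟨P, hP, -⟩ := exists_inc_Js_one (L := K) S.B
  exact S.e0.mem_val_of_eq_inc (P := P) (by rw [hP, e0_jj])

theorem j_unit : S.V0.valuation (jj S) = 1 := by
  obtain ⟨P, hP, hP1⟩ := exists_inc_Js_one (L := K) S.B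
  have e : S.e0.toHom (jj S) = inc S.B P := by rw [hP, e0_jj]
  have hne : red S.B P ≠ 0 := fun h => by
    rw [h] at hP1
    exact zero_ne_one hP1
  have h1 : (jj S)⁻¹ ∈ S.V0 :=
    (S.e0.inv_mem_val_iff ⟨_, S.e0.mem_val_of_eq_inc e⟩).2 (Or.inr (by rw [S.e0.res_of_eq_inc e]; exact hne))
  have h2 := (S.V0.valuation_le_one_iff _).2 (jj_mem S)
  have h3 := (S.V0.valuation_le_one_iff _).2 h1
  have hj0 : jj S ≠ 0 := fun h => by
    have := inc_ne_zero_of_red_ne_zero hne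
    rw [← e, h, map_zero] at this
    exact this rfl
  rw [map_inv₀, inv_le_one₀ (zero_lt_iff.2 ((Valuation.ne_zero_iff _).2 hj0))] at h3
  exact le_antisymm h2 h3

theorem charP_res : CharP (IsLocalRing.ResidueField S.B) S.q :=
  Kron.charP_residue S.hq S.valuation_q_lt_one

/-- the reduction of `j` is not a `q`-th power. -/
theorem j_insep (y : S.F0) : ¬ S.V0.valuation (y ^ S.q - jj S) < 1 := by
  refine S.insep_not_cong S.e0 (e0_jj S) fun h => ?_
  have hy : y ∈ S.V0 := by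
    rw [← ValuationSubring.valuation_le_one_iff] at h ⊢
    rw [map_pow] at h
    exact (pow_le_one_iff_of_nonneg zero_le S.hq.ne_zero).1 h
  have : Fact S.q.Prime := ⟨S.hq⟩
  have := charP_res S
  refine ⟨coeffMap (frobenius _ S.q) (S.e0.res ⟨y, hy⟩), ?_⟩
  rw [← Fermat.Agent.GAL.E.pow_char_eq_qExpand, ← map_pow]
  rfl

/-! ### level `1` -/

/-- the two vertical valuations of level `N0 q`: `V1 0 = F` (cusp `∞`), `V1 1 = V` (cusp `0`). -/
def V1 : Fin 2 → ValuationSubring S.F1 := ![S.V1oo, S.V10]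

@[simp] theorem V1_zero : V1 S 0 = S.V1oo := rfl
@[simp] theorem V1_one : V1 S 1 = S.V10 := rfl

theorem comap_al1 (c : Fin 2) : (V1 S c).comap S.al0.toRingHom = S.V0 := by
  fin_cases c
  · exact S.V1oo_comap_al0
  · exact S.V10_comap_al0

theorem comap_be1 (c : Fin 2) : (V1 S c).comap S.be0.toRingHom = S.V0 := by
  fin_cases c
  · exact S.V1oo_comap_be0
  · exact S.V10_comap_be0

theorem complete_al1 (W : ValuationSubring S.F1) (hW : W.comap S.al0.toRingHom = S.V0) :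
    ∃ c, W = V1 S c := by
  rcases S.complete1_al0 W hW with h | h
  · exact ⟨0, h⟩
  · exact ⟨1, h⟩

theorem complete_be1 (W : ValuationSubring S.F1) (hW : W.comap S.be0.toRingHom = S.V0) :
    ∃ c, W = V1 S c := by
  rcases S.complete1_be0 W hW with h | h
  · exact ⟨0, h⟩
  · exact ⟨1, h⟩

theorem V1oo_ne_V10 : S.V1oo ≠ S.V10 := by
  intro h
  have h1 := S.valuation_aK_lt_one
  have h2 := S.valuation_w1e_aK
  have h3 : S.V10.valuation (Kron.aK K S.N0 S.q) < 1 := h ▸ h1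
  rw [← S.V1oo_comap_w1, valuation_comap_lt_one_iff] at h3
  have h4 : S.V1oo.valuation (S.w1e (Kron.aK K S.N0 S.q)) < 1 := h3
  rw [h2] at h4
  exact lt_irrefl _ h4

theorem inj1 : Function.Injective (V1 S) := by
  intro c c' h
  fin_cases c <;> fin_cases c'
  · rfl
  · exact absurd h (V1oo_ne_V10 S)
  · exact absurd h.symm (V1oo_ne_V10 S)
  · rfl

theorem unif1 (c : Fin 2) : IsUnif (V1 S c) ((S.q : ℕ) : S.F1) := by
  fin_cases c
  · exact S.isUnif_V1oo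
  · exact S.isUnif_V10

theorem denseF : ∀ y ∈ V1 S 0, ∃ r : S.F0, (V1 S 0).valuation (S.al0 r - y) < 1 := S.dense1oo

theorem denseV : ∀ y ∈ V1 S 1, ∃ r : S.F0, (V1 S 1).valuation (S.be0 r - y) < 1 := S.dense10

/-! ### Atkin-Lehner at level `1` -/

theorem w1_al0 (f : S.F0) : S.w1 (S.al0 f) = S.be0 f := S.w1_al0 f

theorem w1_be0 (f : S.F0) : S.w1 (S.be0 f) = S.al0 f := S.w1_be0 f

theorem w1_w1 (y : S.F1) : S.w1 (S.w1 y) = y := S.w1_w1 y

theorem comap_w1_zero : (V1 S 0).comap S.w1.toRingHom = V1 S 1 := S.V1oo_comap_w1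

theorem comap_w1_one : (V1 S 1).comap S.w1.toRingHom = V1 S 0 := S.V10_comap_w1

theorem val_V10_lt_iff (y : S.F1) : S.V10.valuation y < 1 ↔ S.V1oo.valuation (S.w1 y) < 1 := by
  rw [← S.V1oo_comap_w1, valuation_comap_lt_one_iff]
  rfl

/-! ### The Frobenius relations -/

/-- `K` is algebraic over `ℚ` (it is embedded in `ℚ̄`). -/
theorem isAlgebraic_K : Algebra.IsAlgebraic ℚ K := by
  have : IsScalarTower ℚ K Kbar := IsScalarTower.of_algebraMap_eq' (RingHom.ext_rat _ _)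
  have : Algebra.IsAlgebraic ℚ Kbar := AlgebraicClosure.isAlgebraic ℚ
  exact Algebra.IsAlgebraic.of_injective (IsScalarTower.toAlgHom ℚ K Kbar)
    (algebraMap K Kbar).injective

include S in
theorem bijective_of_ringHom (γ : K →+* K) : Function.Bijective γ := by
  have := isAlgebraic_K (K := K)
  exact Algebra.IsAlgebraic.algHom_bijective γ.toRatAlgHom

/-- the coefficientwise action of an endomorphism of `K` preserving `B` preserves the Gauss valuation. -/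
theorem comap_gam {γ : K →+* K} (hγ : S.B.comap γ = S.B) :
    S.V0.comap (Kron.gam γ S.N0) = S.V0 := by
  have h1 : (S.e0.bc γ hγ).val = S.e0.val := IntEmb.val_bc S.e0 γ hγ
  have h2 : (S.e0.bc γ hγ).val = (S.e0.comp (Kron.gam γ S.N0)).val :=
    IntEmb.val_congr (RingHom.ext fun f => rfl)
  have h3 : (S.e0.comp (Kron.gam γ S.N0)).val = S.e0.val.comap (Kron.gam γ S.N0) :=
    IntEmb.val_comp S.e0 _
  exact (h3.symm.trans h2.symm).trans h1

theorem gam_mem_iff {γ : K →+* K} (hγ : S.B.comap γ = S.B) (f : S.F0) :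
    Kron.gam γ S.N0 f ∈ S.V0 ↔ f ∈ S.V0 := by
  rw [← ValuationSubring.mem_comap, comap_gam S hγ]

theorem kron {γ₀ : K →+* K} (hγ : Mod.IsFrobInv S.B S.q γ₀) (h : S.F0) (hh : h ∈ S.V0) :
    S.V1oo.valuation (S.be0 h - S.al0 (Kron.gam γ₀ S.N0 h) ^ S.q) < 1 :=
  Kron.kron S.isUnif_B S.hq S.valuation_q_lt_one hγ.frobInv S.isGauss_V0 S.isGauss_V1oo h hh

/-- the pair of congruences `h(qz) ≡ f(z)^q` on `F`, `h(z) ≡ f(qz)^q` on `V`. -/
def Frob (f h : S.F0) : Prop :=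
  S.V10.valuation (S.al0 h - S.be0 f ^ S.q) < 1 ∧ S.V1oo.valuation (S.be0 h - S.al0 f ^ S.q) < 1

theorem frob_of {f h : S.F0} (H : S.V1oo.valuation (S.be0 h - S.al0 f ^ S.q) < 1) : Frob S f h := by
  refine ⟨?_, H⟩
  rw [val_V10_lt_iff, map_sub, map_pow, S.w1_al0, S.w1_be0]
  exact H

/-- **frob_down** -/
theorem frob_down (hγ : ∃ γ₀ : K →+* K, Mod.IsFrobInv S.B S.q γ₀) (h : S.F0) (hh : h ∈ S.V0) :
    ∃ f ∈ S.V0, S.V10.valuation (S.al0 h - S.be0 f ^ S.q) < 1 ∧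
      S.V1oo.valuation (S.be0 h - S.al0 f ^ S.q) < 1 := by
  obtain ⟨γ₀, hγ₀⟩ := hγ
  exact ⟨Kron.gam γ₀ S.N0 h, (gam_mem_iff S hγ₀.comap h).2 hh, frob_of S (kron S hγ₀ h hh)⟩

/-- **frob_up** -/
theorem frob_up (hγ : ∃ γ₀ : K →+* K, Mod.IsFrobInv S.B S.q γ₀) (f : S.F0) (hf : f ∈ S.V0) :
    ∃ h ∈ S.V0, S.V10.valuation (S.al0 h - S.be0 f ^ S.q) < 1 ∧
      S.V1oo.valuation (S.be0 h - S.al0 f ^ S.q) < 1 := by
  obtain ⟨γ₀, hγ₀⟩ := hγ
  let e : K ≃+* K := RingEquiv.ofBijective γ₀ (bijective_of_ringHom S γ₀)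
  let γ₁ : K →+* K := e.symm.toRingHom
  have h01 : ∀ a, γ₀ (γ₁ a) = a := fun a => e.apply_symm_apply a
  have hgg : Kron.gam γ₀ S.N0 (Kron.gam γ₁ S.N0 f) = f := by
    apply Subtype.ext
    rw [Kron.coe_gam, Kron.coe_gam]
    ext n
    exact h01 _
  have hmem : Kron.gam γ₁ S.N0 f ∈ S.V0 := by
    rw [← gam_mem_iff S hγ₀.comap, hgg]
    exact hf
  refine ⟨Kron.gam γ₁ S.N0 f, hmem, frob_of S ?_⟩
  have := kron S hγ₀ _ hmem
  rwa [hgg] at this

end Fermat.Agent.S45.Mod.BaseQ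

end
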