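/-
S45, project CARAYOL-K, block MOD (helper238): THE POLYNOMIAL KRONECKER CONGRUENCE.

`Φ_q(X, Y) = (X^q - Y)(X - Y^q) + q Ψ(X, Y)`, `Ψ ∈ ℤ[X, Y]` symmetric of degree `≤ q` in each variable,
and `Φ_q(j(z), j(q z)) = 0`:  this is the field `kron` of `Mod.Tower.Gen`.

Proof: `Lib.ModEq` gives `Φ_q = X^(q+1) + Y^(q+1) + ∑_{a,b ≤ q} c a b X^a Y^b` over `ℤ`, symmetric, `c q q = -1`.
Modulo `q` one has `j(t^q) = j(t)^q` and `j` is transcendental over `𝔽_q`, so
`X^(q+1) + X^(q(q+1)) + ∑ c a b X^(a + q b) = 0` in `𝔽_q[X]`; comparing coefficients (and using the symmetry) all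
`c a b` vanish modulo `q` except `c 1 1 = c q q = -1`.
-/
import Fermat.Agent.Lib.ModEq.Main
import Fermat.Agent.S34.Kron
import Fermat.Agent.GAL.KLInputs.Base
import Fermat.Agent.S18.ModDefs
import Fermat.Prelude.Def_ModularCurve_HeckeOperator
import Fermat.Agent.S45.Mod.Tower

set_option autoImplicit false

noncomputable section

namespace Fermat.Agent.S45.Mod.KronPoly

open Polynomial ModularCurve Fermat.Agent.S24 Fermat.Agent.Lib.ModEq

/-- the polynomial `Φ_q(X, X^q)` with coefficients in a commutative ring. -/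
def diag (R : Type*) [CommRing R] (q : ℕ) (c : ℕ → ℕ → R) : R[X] :=
  X ^ (q + 1) + X ^ (q * (q + 1)) +
    ∑ a ∈ Finset.range (q + 1), ∑ b ∈ Finset.range (q + 1), C (c a b) * X ^ (a + q * b)

theorem coeff_diag (R : Type*) [CommRing R] (q : ℕ) (c : ℕ → ℕ → R) (e : ℕ) :
    (diag R q c).coeff e = (if e = q + 1 then 1 else 0) + (if e = q * (q + 1) then 1 else 0) +
      ∑ a ∈ Finset.range (q + 1), ∑ b ∈ Finset.range (q + 1),
        (if e = a + q * b then c a b else 0) := by
  unfold diag
  simp only [coeff_add, coeff_X_pow, finsetSum_coeff, coeff_C_mul, mul_ite, mul_one, mul_zero]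

/-- the arithmetic of the exponents: `a` is determined by `a + q b` when it is not `0` or `q`. -/
theorem eq_of_add_mul_eq {q a b a₀ b₀ : ℕ} (ha : a ≤ q) (h1 : 1 ≤ a₀) (h2 : a₀ < q)
    (h : a₀ + q * b₀ = a + q * b) : a = a₀ ∧ b = b₀ := by
  have hm : a₀ % q = a % q := by
    have := congrArg (· % q) h
    simpa only [Nat.add_mul_mod_self_left] using this
  rw [Nat.mod_eq_of_lt h2] at hm
  have haa : a = a₀ := by
    rcases Nat.lt_or_ge a q with hlt | hge
    · rw [Nat.mod_eq_of_lt hlt] at hm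
      exact hm.symm
    · have : a = q := le_antisymm ha hge
      rw [this, Nat.mod_self] at hm
      omega
  refine ⟨haa, ?_⟩
  subst haa
  have : q * b₀ = q * b := by omega
  exact (Nat.eq_of_mul_eq_mul_left (by omega) this).symm

variable {R : Type*} [CommRing R] {q : ℕ} {c : ℕ → ℕ → R}

/-- the coefficients `c a b`, `0 < a < q`. -/
theorem coeff_mid (hq : 2 ≤ q) (h : diag R q c = 0) {a₀ b₀ : ℕ} (h1 : 1 ≤ a₀) (h2 : a₀ < q)
    (hb : b₀ ≤ q) : c a₀ b₀ = -(if a₀ = 1 ∧ b₀ = 1 then 1 else 0) := by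
  have h0 := coeff_diag R q c (a₀ + q * b₀)
  rw [h, coeff_zero] at h0
  have e1 : (∑ a ∈ Finset.range (q + 1), ∑ b ∈ Finset.range (q + 1),
      (if a₀ + q * b₀ = a + q * b then c a b else 0)) = c a₀ b₀ := by
    rw [Finset.sum_eq_single a₀, Finset.sum_eq_single b₀]
    · rw [if_pos rfl]
    · intro b _ hne
      rw [if_neg]
      intro hh
      exact hne (eq_of_add_mul_eq h2.le h1 h2 hh).2
    · intro hh
      exact absurd (Finset.mem_range.2 (Nat.lt_succ_of_le hb)) hh
    · intro a ha hne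
      refine Finset.sum_eq_zero fun b _ => ?_
      rw [if_neg]
      intro hh
      exact hne (eq_of_add_mul_eq (Nat.lt_succ_iff.1 (Finset.mem_range.1 ha)) h1 h2 hh).1
    · intro hh
      exact absurd (Finset.mem_range.2 (by omega)) hh
  have e2 : (if a₀ + q * b₀ = q * (q + 1) then (1 : R) else 0) = 0 := by
    rw [if_neg]
    intro hh
    have := (eq_of_add_mul_eq (a := 0) (b := q + 1) (Nat.zero_le q) h1 h2 (by rw [hh, zero_add])).1
    omega
  have e3 : (if a₀ + q * b₀ = q + 1 then (1 : R) else 0) = if a₀ = 1 ∧ b₀ = 1 then 1 else 0 := by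
    by_cases hc : a₀ = 1 ∧ b₀ = 1
    · rw [if_pos hc, if_pos (by rw [hc.1, hc.2]; ring)]
    · rw [if_neg hc, if_neg]
      intro hh
      have := eq_of_add_mul_eq (a := 1) (b := 1) (by omega) h1 h2 (by rw [hh]; ring)
      exact hc ⟨this.1.symm, this.2.symm⟩
  rw [e1, e2, e3, add_zero] at h0
  exact eq_neg_of_add_eq_zero_right h0.symm

/-- the constant coefficient. -/
theorem coeff_zero_zero (hq : 2 ≤ q) (h : diag R q c = 0) : c 0 0 = 0 := by
  have h0 := coeff_diag R q c 0
  rw [h, coeff_zero] at h0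
  have e1 : (∑ a ∈ Finset.range (q + 1), ∑ b ∈ Finset.range (q + 1),
      (if 0 = a + q * b then c a b else 0)) = c 0 0 := by
    rw [Finset.sum_eq_single 0, Finset.sum_eq_single 0]
    · rw [if_pos (by simp)]
    · intro b _ hne
      rw [if_neg]
      intro hh
      have : q * b = 0 := by omega
      rcases Nat.mul_eq_zero.1 this with h3 | h3
      · omega
      · exact hne h3
    · intro hh
      exact absurd (Finset.mem_range.2 (by omega)) hh
    · intro a _ hne
      refine Finset.sum_eq_zero fun b _ => ?_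
      rw [if_neg]
      omega
    · intro hh
      exact absurd (Finset.mem_range.2 (by omega)) hh
  rw [e1, if_neg (by omega), if_neg, zero_add, zero_add] at h0
  · exact h0.symm
  · intro hh
    have := Nat.mul_eq_zero.1 hh.symm
    omega

/-- the coefficient of `X ^ q`. -/
theorem coeff_q_zero (hq : 2 ≤ q) (h : diag R q c = 0) : c q 0 + c 0 1 = 0 := by
  have h0 := coeff_diag R q c q
  rw [h, coeff_zero] at h0
  have key : ∀ a b : ℕ, q = a + q * b → (a = q ∧ b = 0) ∨ (a = 0 ∧ b = 1) := by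
    intro a b hh
    rcases Nat.eq_zero_or_pos b with rfl | hb
    · left
      exact ⟨by omega, rfl⟩
    · right
      have h1 : q * 1 ≤ q * b := Nat.mul_le_mul_left q hb
      have h2 : q * b = q * 1 := by omega
      exact ⟨by omega, Nat.eq_of_mul_eq_mul_left (by omega) h2⟩
  have e1 : (∑ a ∈ Finset.range (q + 1), ∑ b ∈ Finset.range (q + 1),
      (if q = a + q * b then c a b else 0)) = c q 0 + c 0 1 := by
    rw [Finset.sum_eq_add q 0 (by omega), Finset.sum_eq_single 0, Finset.sum_eq_single 1]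
    · rw [if_pos (by simp), if_pos (by simp)]
    · intro b _ hne
      rw [if_neg]
      intro hh
      rcases key 0 b hh with h3 | h3
      · omega
      · exact hne h3.2
    · intro hh
      exact absurd (Finset.mem_range.2 (by omega)) hh
    · intro b _ hne
      rw [if_neg]
      intro hh
      rcases key q b hh with h3 | h3
      · exact hne h3.2
      · omega
    · intro hh
      exact absurd (Finset.mem_range.2 (by omega)) hh
    · intro a _ hne
      refine Finset.sum_eq_zero fun b _ => ?_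
      rw [if_neg]
      intro hh
      rcases key a b hh with h3 | h3
      · exact hne.1 h3.1
      · exact hne.2 h3.1
    · intro hh
      exact absurd (Finset.mem_range.2 (by omega)) hh
    · intro hh
      exact absurd (Finset.mem_range.2 (by omega)) hh
  rw [e1, if_neg (by omega), if_neg, zero_add, zero_add] at h0
  · exact h0.symm
  · intro hh
    have h1 : q * 1 < q * (q + 1) := Nat.mul_lt_mul_of_pos_left (by omega) (by omega)
    omega

/-- the "Kronecker delta" part of `Φ_q`. -/
def del (q a b : ℕ) : ℤ := (if a = q ∧ b = q then 1 else 0) + (if a = 1 ∧ b = 1 then 1 else 0)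

theorem del_symm (q a b : ℕ) : del q a b = del q b a := by
  unfold del
  simp only [and_comm]

/-- all the coefficients, from the symmetry. -/
theorem coeff_all (hq : 2 ≤ q) (h : diag R q c = 0) (hs : ∀ a b, c a b = c b a) (hqq : c q q = -1)
    {a b : ℕ} (ha : a ≤ q) (hb : b ≤ q) : c a b + (del q a b : R) = 0 := by
  have hmid : ∀ a b : ℕ, 1 ≤ a → a < q → b ≤ q → c a b + (del q a b : R) = 0 := by
    intro a b h1 h2 hb
    rw [coeff_mid hq h h1 h2 hb]
    unfold del
    have hn : ¬ (a = q ∧ b = q) := by omega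
    rw [if_neg hn]
    split_ifs <;> simp
  by_cases h1 : 1 ≤ a ∧ a < q
  · exact hmid a b h1.1 h1.2 hb
  by_cases h2 : 1 ≤ b ∧ b < q
  · rw [hs, del_symm]
    exact hmid b a h2.1 h2.2 ha
  have ha' : a = 0 ∨ a = q := by omega
  have hb' : b = 0 ∨ b = q := by omega
  have h01 : c 0 1 = 0 := by
    have hn : ¬ ((1 : ℕ) = 1 ∧ (0 : ℕ) = 1) := by omega
    rw [hs, coeff_mid hq h le_rfl (by omega) (Nat.zero_le q), if_neg hn, neg_zero]
  have hq0 : c q 0 = 0 := by
    have := coeff_q_zero hq h
    rwa [h01, add_zero] at this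
  have hd : ∀ a b : ℕ, (a = 0 ∨ b = 0) → del q a b = 0 := by
    intro a b hab
    unfold del
    have hn1 : ¬ (a = q ∧ b = q) := by omega
    have hn2 : ¬ (a = 1 ∧ b = 1) := by omega
    rw [if_neg hn1, if_neg hn2, add_zero]
  rcases ha' with ha0 | ha0 <;> rcases hb' with hb0 | hb0
  · rw [ha0, hb0, coeff_zero_zero hq h, hd 0 0 (Or.inl rfl)]; simp
  · rw [ha0, hb0, hs, hq0, hd 0 _ (Or.inl rfl)]; simp
  · rw [ha0, hb0, hq0, hd _ 0 (Or.inr rfl)]; simp
  · rw [ha0, hb0, hqq]
    unfold del
    have hn2 : ¬ (q = 1 ∧ q = 1) := by omega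
    rw [if_pos ⟨rfl, rfl⟩, if_neg hn2]
    simp

/-! ### The congruence -/

/-- `Φ_q(X, X^q) = 0` in `𝔽_q[X]`. -/
theorem diag_cPhi (q : ℕ) [NeZero q] (hq : q.Prime) :
    diag (ZMod q) q (fun a b => ((cPhi q a b : ℤ) : ZMod q)) = 0 := by
  have : Fact q.Prime := ⟨hq⟩
  have htr := Fermat.Agent.GAL.KLInputs.transcendental_jqModC (ZMod q)
  apply (transcendental_iff.1 htr)
  have h := modEq_map q hq (coeffMap (Int.castRingHom (ZMod q)))
  rw [Fermat.Agent.S34.coeffMap_qExpand_aux, coeffMap_jqModC,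
    ← Fermat.Agent.S34.jqModC_pow_char hq] at h
  rw [← h]
  unfold diag
  simp only [map_add, map_pow, map_sum, map_mul, aeval_X, aeval_C]
  congr 1
  · congr 1
    rw [pow_mul]
  · refine Finset.sum_congr rfl fun a _ => Finset.sum_congr rfl fun b _ => ?_
    rw [pow_add, pow_mul, mul_assoc]
    congr 1
    simp

/-- **Kronecker's congruence for the coefficients of `Φ_q`.** -/
theorem dvd_cPhi_add_del (q : ℕ) [NeZero q] (hq : q.Prime) {a b : ℕ} (ha : a ≤ q) (hb : b ≤ q) :
    (q : ℤ) ∣ cPhi q a b + del q a b := by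
  have h := coeff_all (R := ZMod q) (c := fun a b => ((cPhi q a b : ℤ) : ZMod q)) hq.two_le
    (diag_cPhi q hq) (fun a b => by rw [cPhi_symm]) (by simp [cPhi_top q hq]) ha hb
  rw [← ZMod.intCast_zmod_eq_zero_iff_dvd]
  push_cast
  exact h

/-- the coefficients of `Ψ = (Φ_q - (X^q - Y)(X - Y^q)) / q`. -/
def psi (q : ℕ) (a b : ℕ) : ℤ := (cPhi q a b + del q a b) / q

theorem psi_symm (q a b : ℕ) : psi q a b = psi q b a := by
  unfold psi
  rw [cPhi_symm, del_symm]

theorem mul_psi (q : ℕ) [NeZero q] (hq : q.Prime) {a b : ℕ} (ha : a ≤ q) (hb : b ≤ q) :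
    (q : ℤ) * psi q a b = cPhi q a b + del q a b :=
  Int.mul_ediv_cancel' (dvd_cPhi_add_del q hq ha hb)

/-- the sum of the "delta" terms. -/
theorem sum_del {S : Type*} [CommRing S] {q : ℕ} (hq : 2 ≤ q) (x y : S) :
    ∑ a ∈ Finset.range (q + 1), ∑ b ∈ Finset.range (q + 1), (del q a b : S) * x ^ a * y ^ b =
      x ^ q * y ^ q + x * y := by
  have e : ∀ a b : ℕ, (del q a b : S) * x ^ a * y ^ b =
      (if a = q then (if b = q then x ^ q * y ^ q else 0) else 0) +
      (if a = 1 then (if b = 1 then x * y else 0) else 0) := by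
    intro a b
    unfold del
    push_cast
    rw [add_mul, add_mul]
    congr 1
    · by_cases h1 : a = q
      · by_cases h2 : b = q
        · simp [h1, h2]
        · simp [h1, h2]
      · simp [h1]
    · by_cases h1 : a = 1
      · by_cases h2 : b = 1
        · simp [h1, h2]
        · simp [h1, h2]
      · simp [h1]
  simp only [e, Finset.sum_add_distrib]
  have hm : q ∈ Finset.range (q + 1) := Finset.mem_range.2 (by omega)
  have hm1 : 1 ∈ Finset.range (q + 1) := Finset.mem_range.2 (by omega)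
  simp [Finset.sum_ite_eq', hm, hm1]

/-- `kronPoly q (psi q)` is the modular polynomial. -/
theorem kronPoly_psi {S : Type*} [CommRing S] (q : ℕ) [NeZero q] (hq : q.Prime) (x y : S) :
    kronPoly q (psi q) x y = x ^ (q + 1) + y ^ (q + 1) +
      ∑ a ∈ Finset.range (q + 1), ∑ b ∈ Finset.range (q + 1), ((cPhi q a b : ℤ) : S) * x ^ a * y ^ b := by
  have e : (q : S) * ∑ a ∈ Finset.range (q + 1), ∑ b ∈ Finset.range (q + 1),
      (psi q a b : S) * x ^ a * y ^ b =
      ∑ a ∈ Finset.range (q + 1), ∑ b ∈ Finset.range (q + 1), ((cPhi q a b : ℤ) : S) * x ^ a * y ^ b +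
      ∑ a ∈ Finset.range (q + 1), ∑ b ∈ Finset.range (q + 1), (del q a b : S) * x ^ a * y ^ b := by
    rw [Finset.mul_sum, ← Finset.sum_add_distrib]
    refine Finset.sum_congr rfl fun a ha => ?_
    rw [Finset.mul_sum, ← Finset.sum_add_distrib]
    refine Finset.sum_congr rfl fun b hb => ?_
    have h := congrArg (Int.cast : ℤ → S) (mul_psi q hq (Nat.lt_succ_iff.1 (Finset.mem_range.1 ha))
      (Nat.lt_succ_iff.1 (Finset.mem_range.1 hb)))
    push_cast at h
    linear_combination (x ^ a * y ^ b) * h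
  unfold kronPoly
  rw [e, sum_del hq.two_le]
  ring

/-- **Kronecker's congruence**, under any ring homomorphism out of `ℤ((t))`. -/
theorem kronPoly_map (q : ℕ) [NeZero q] (hq : q.Prime) {E : Type*} [CommRing E]
    (φ : LaurentSeries ℤ →+* E) :
    kronPoly q (psi q) (φ (jqModC ℤ)) (φ (qExpand ℤ q (jqModC ℤ))) = 0 := by
  rw [kronPoly_psi q hq]
  exact modEq_map q hq φ

/-- **Kronecker's congruence** over `ℤ`. -/
theorem exists_kron_int (q : ℕ) [NeZero q] (hq : q.Prime) :
    ∃ ψ : ℕ → ℕ → ℤ, (∀ a b, ψ a b = ψ b a) ∧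
      kronPoly q ψ (jqModC ℤ) (qExpand ℤ q (jqModC ℤ)) = 0 :=
  ⟨psi q, psi_symm q, kronPoly_map q hq (RingHom.id _)⟩

/-- **Kronecker's congruence** for series with coefficients in any commutative ring, at every level `d`:
`Φ_q(j(d z), j(d q z)) = 0`. -/
theorem kronPoly_qExpand (q : ℕ) [NeZero q] (hq : q.Prime) (C : Type*) [CommRing C] (d : ℕ) [NeZero d] :
    kronPoly q (psi q) (qExpand C d (jqModC C)) (qExpand C d (qExpand C q (jqModC C))) = 0 := by
  have h := kronPoly_map q hq ((qExpand C d).comp (coeffMap (Int.castRingHom C)))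
  simpa only [RingHom.comp_apply, Fermat.Agent.S34.coeffMap_qExpand_aux, coeffMap_jqModC] using h

/-! ### The function fields -/

section FK

open Fermat.Agent.S18

variable (K : Type*) [Field K] [Algebra ℚ K]

theorem coe_jK (N : ℕ) : ((jK K N : FK K N) : LaurentSeries K) = jqModC K := by
  show coeffEmb K jq = _
  rw [coeffEmb, ← jqModC_rat, coeffMap_jqModC]

/-- **Kronecker's congruence in the function field of `X₀(M q)`**: the field `kron` of `Tower.Gen` for
`al 0 = heckeAlphaBar K M q`, `be 0 = heckeBetaBar K M q`, `j = jK K M`. -/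
theorem kronPoly_FK (M q : ℕ) [NeZero M] [NeZero q] (hq : q.Prime) :
    kronPoly q (psi q) (heckeAlphaBar K M q (jK K M)) (heckeBetaBar K M q (jK K M)) = 0 := by
  have hinj : Function.Injective (algebraMap (FK K (M * q)) (LaurentSeries K)) :=
    (algebraMap (FK K (M * q)) (LaurentSeries K)).injective
  apply hinj
  rw [map_zero, map_kronPoly]
  have h := kronPoly_qExpand q hq K 1
  rw [qExpand_one_apply, qExpand_one_apply] at h
  have e1 : algebraMap (FK K (M * q)) (LaurentSeries K) (heckeAlphaBar K M q (jK K M)) = jqModC K := by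
    show ((heckeAlphaBar K M q (jK K M) : FK K (M * q)) : LaurentSeries K) = _
    rw [coe_heckeAlphaBar, coe_jK]
  have e2 : algebraMap (FK K (M * q)) (LaurentSeries K) (heckeBetaBar K M q (jK K M)) =
      qExpand K q (jqModC K) := by
    show ((heckeBetaBar K M q (jK K M) : FK K (M * q)) : LaurentSeries K) = _
    rw [coe_heckeBetaBar, coe_jK]
  rw [e1, e2]
  exact h

theorem exists_kron_FK (M q : ℕ) [NeZero M] [NeZero q] (hq : q.Prime) :
    ∃ ψ : ℕ → ℕ → ℤ, (∀ a b, ψ a b = ψ b a) ∧
      kronPoly q ψ (heckeAlphaBar K M q (jK K M)) (heckeBetaBar K M q (jK K M)) = 0 :=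
  ⟨psi q, psi_symm q, kronPoly_FK K M q hq⟩

end FK

end Fermat.Agent.S45.Mod.KronPoly

end
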